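import Mathlib
import Fermat.Prelude.Def_FLTPrelim_Ramification
import Fermat.Agent.Lib.ValFrac

set_option autoImplicit false

/-!
# W3a: dictionary between valuation subrings of `AlgebraicClosure ℚ` and primes of number fields

`Qb = AlgebraicClosure ℚ`, `F : IntermediateField ℚ Qb` a number field, `A : ValuationSubring Qb`.

* `primeUnder F A : Ideal (𝓞 F)` is the prime `m_A ∩ 𝓞 F`; `mem_primeUnder` unfolds it to
  `A.valuation ((x : F) : Qb) < 1`.
* `placeUnder F A hℓ hA : HeightOneSpectrum (𝓞 F)` is the same prime as a height-one prime, when `A`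
  lies over the prime number `ℓ`.
* `exists_valuationSubring`: every `v : HeightOneSpectrum (𝓞 F)` is `primeUnder F A` for some `A`.
* the dictionary (`hv : v.asIdeal = primeUnder F A`): for `x y : F`
  `v.valuation F x ≤ 1 ↔ (x : Qb) ∈ A`, `v.valuation F x < 1 ↔ A.valuation (x : Qb) < 1`,
  `v.valuation F x ≤ v.valuation F y ↔ A.valuation (x : Qb) ≤ A.valuation (y : Qb)`, etc.
* `exists_fraction`: elements of `F` lying in `A` are fractions `n / d` of integers of `F` with
  `d` a unit of `A` (so `A ∩ F` is the localisation of `𝓞 F` at its prime).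
-/

open scoped NumberField
open IsDedekindDomain

namespace Fermat.Agent.S14.Wiring.ValRing

local notation "Qb" => AlgebraicClosure ℚ

/-- An algebraic integer lies in every valuation subring. -/
theorem mem_of_isIntegral {L : Type*} [Field L] (A : ValuationSubring L) {x : L}
    (hx : IsIntegral ℤ x) : x ∈ A := by
  have h1 : IsIntegral A x := hx.tower_top
  obtain ⟨y, hy⟩ := IsIntegrallyClosed.algebraMap_eq_of_integral h1
  rw [← hy]
  exact y.2

theorem valuation_le_one_of_isIntegral {L : Type*} [Field L] (A : ValuationSubring L) {x : L}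
    (hx : IsIntegral ℤ x) : A.valuation x ≤ 1 :=
  (A.valuation_le_one_iff _).mpr (mem_of_isIntegral A hx)

section Basic

variable (F : IntermediateField ℚ Qb)

theorem isIntegral_coe (x : 𝓞 F) : IsIntegral ℤ (((x : F)) : Qb) :=
  map_isIntegral_int (algebraMap F Qb) (NumberField.RingOfIntegers.isIntegral_coe x)

theorem coe_mem (A : ValuationSubring Qb) (x : 𝓞 F) : (((x : F)) : Qb) ∈ A :=
  mem_of_isIntegral A (isIntegral_coe F x)

theorem valuation_coe_le_one (A : ValuationSubring Qb) (x : 𝓞 F) :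
    A.valuation (((x : F)) : Qb) ≤ 1 :=
  (A.valuation_le_one_iff _).mpr (coe_mem F A x)

/-- The inclusion of the ring of integers of `F` into a valuation subring of `Qb`. -/
noncomputable def toValRing (A : ValuationSubring Qb) : 𝓞 F →+* A :=
  ((algebraMap F Qb).comp (algebraMap (𝓞 F) F)).codRestrict A.toSubring (fun x => coe_mem F A x)

theorem toValRing_coe (A : ValuationSubring Qb) (x : 𝓞 F) :
    ((toValRing F A x : A) : Qb) = ((x : F) : Qb) := rfl

/-- The prime `m_A ∩ 𝓞 F` of the ring of integers of `F` below the valuation subring `A`. -/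
noncomputable def primeUnder (A : ValuationSubring Qb) : Ideal (𝓞 F) :=
  (IsLocalRing.maximalIdeal A).comap (toValRing F A)

instance primeUnder_isPrime (A : ValuationSubring Qb) : (primeUnder F A).IsPrime :=
  Ideal.comap_isPrime _ _

theorem mem_primeUnder (A : ValuationSubring Qb) (x : 𝓞 F) :
    x ∈ primeUnder F A ↔ A.valuation ((x : F) : Qb) < 1 := by
  rw [primeUnder, Ideal.mem_comap, ValuationSubring.valuation_lt_one_iff]
  rfl

theorem notMem_primeUnder (A : ValuationSubring Qb) (x : 𝓞 F) :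
    x ∉ primeUnder F A ↔ A.valuation ((x : F) : Qb) = 1 := by
  rw [mem_primeUnder, not_lt]
  exact ⟨fun h => le_antisymm (valuation_coe_le_one F A x) h, fun h => h.ge⟩

theorem natCast_mem_primeUnder_iff (A : ValuationSubring Qb) (ℓ : ℕ) :
    ((ℓ : ℕ) : 𝓞 F) ∈ primeUnder F A ↔ A.LiesOverPrime ℓ := by
  rw [mem_primeUnder, ValuationSubring.LiesOverPrime, ValuationSubring.mem_nonunits_iff]
  have : ((((ℓ : ℕ) : 𝓞 F) : F) : Qb) = (ℓ : Qb) := by
    simp
  rw [this]

theorem primeUnder_ne_bot (A : ValuationSubring Qb) {ℓ : ℕ} (hℓ : ℓ.Prime)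
    (hA : A.LiesOverPrime ℓ) : primeUnder F A ≠ ⊥ := by
  intro h
  have h1 : ((ℓ : ℕ) : 𝓞 F) ∈ primeUnder F A := (natCast_mem_primeUnder_iff F A ℓ).mpr hA
  rw [h, Ideal.mem_bot] at h1
  exact hℓ.ne_zero (by exact_mod_cast h1)

/-- Compatibility in towers: the prime of `𝓞 L` below `A` lies over the prime of `𝓞 K` below `A`. -/
theorem mem_primeUnder_iff_of_coe_eq (A : ValuationSubring Qb) (K L : IntermediateField ℚ Qb)
    (x : 𝓞 K) (y : 𝓞 L) (h : ((y : L) : Qb) = ((x : K) : Qb)) :
    y ∈ primeUnder L A ↔ x ∈ primeUnder K A := by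
  rw [mem_primeUnder, mem_primeUnder, h]

theorem comap_primeUnder (A : ValuationSubring Qb) (K L : IntermediateField ℚ Qb)
    (f : 𝓞 K →+* 𝓞 L) (hf : ∀ x : 𝓞 K, ((f x : L) : Qb) = ((x : K) : Qb)) :
    (primeUnder L A).comap f = primeUnder K A := by
  ext x
  rw [Ideal.mem_comap]
  exact mem_primeUnder_iff_of_coe_eq A K L x (f x) (hf x)

end Basic

section Dictionary

theorem coe_inv_eq {F : IntermediateField ℚ Qb} (x : F) :
    ((x⁻¹ : F) : Qb) = ((x : F) : Qb)⁻¹ := rfl

theorem coe_div_eq {F : IntermediateField ℚ Qb} (x y : F) :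
    ((x / y : F) : Qb) = ((x : F) : Qb) / ((y : F) : Qb) := rfl

theorem coe_mul_eq {F : IntermediateField ℚ Qb} (x y : F) :
    ((x * y : F) : Qb) = ((x : F) : Qb) * ((y : F) : Qb) := rfl

variable {F : IntermediateField ℚ Qb} [NumberField F] {A : ValuationSubring Qb}
  {v : HeightOneSpectrum (𝓞 F)}

/-- A fraction representation of an element of `F` integral at `v`. -/
theorem exists_fraction_of_valuation_le_one (hv : v.asIdeal = primeUnder F A) (x : F)
    (hx : v.valuation F x ≤ 1) :
    ∃ n d : 𝓞 F, d ∉ v.asIdeal ∧ A.valuation ((d : F) : Qb) = 1 ∧ x * (d : F) = (n : F) := by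
  obtain ⟨n, d, hnd⟩ := v.exists_primeCompl_mul_eq_of_integer x hx
  refine ⟨n, d, d.2, ?_, hnd⟩
  rw [← notMem_primeUnder, ← hv]
  exact d.2

theorem mem_of_valuation_le_one (hv : v.asIdeal = primeUnder F A) (x : F)
    (hx : v.valuation F x ≤ 1) : (x : Qb) ∈ A := by
  obtain ⟨n, d, -, hd, hnd⟩ := exists_fraction_of_valuation_le_one hv x hx
  have h1 : (x : Qb) * ((d : F) : Qb) = ((n : F) : Qb) := by
    rw [← coe_mul_eq, hnd]
  rw [← A.valuation_le_one_iff]
  have h2 : A.valuation (x : Qb) = A.valuation ((n : F) : Qb) := by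
    rw [← h1, map_mul, hd, mul_one]
  rw [h2]
  exact valuation_coe_le_one F A n

theorem valuation_lt_one_of_lt_one (hv : v.asIdeal = primeUnder F A) (x : F)
    (hx : v.valuation F x < 1) : A.valuation (x : Qb) < 1 := by
  obtain ⟨n, d, hdv, hd, hnd⟩ := exists_fraction_of_valuation_le_one hv x hx.le
  have hd' : v.valuation F (algebraMap (𝓞 F) F d) = 1 := by
    rw [HeightOneSpectrum.valuation_eq_one_iff_notMem]
    exact hdv
  have hn : n ∈ v.asIdeal := by
    rw [← v.valuation_lt_one_iff_mem (K := F)]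
    have : (algebraMap (𝓞 F) F n) = x * (d : F) := hnd.symm
    show v.valuation F (algebraMap (𝓞 F) F n) < 1
    rw [this, map_mul]
    have hd'' : v.valuation F (d : F) = 1 := hd'
    rw [hd'', mul_one]
    exact hx
  rw [hv, mem_primeUnder] at hn
  have h1 : (x : Qb) * ((d : F) : Qb) = ((n : F) : Qb) := by
    rw [← coe_mul_eq, hnd]
  calc A.valuation (x : Qb) = A.valuation ((n : F) : Qb) := by rw [← h1, map_mul, hd, mul_one]
    _ < 1 := hn

/-- **Dictionary, integrality.** `x ∈ F` is `v`-integral iff it lies in `A`. -/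
theorem valuation_le_one_iff (hv : v.asIdeal = primeUnder F A) (x : F) :
    v.valuation F x ≤ 1 ↔ (x : Qb) ∈ A := by
  refine ⟨mem_of_valuation_le_one hv x, fun hx => ?_⟩
  by_contra hcon
  rw [not_le] at hcon
  have hx0 : x ≠ 0 := by
    rintro rfl
    simp at hcon
  have h1 : v.valuation F x⁻¹ < 1 := by
    rw [map_inv₀]
    exact inv_lt_one_of_one_lt₀ hcon
  have h2 := valuation_lt_one_of_lt_one hv x⁻¹ h1
  rw [coe_inv_eq, map_inv₀] at h2
  have h4 : A.valuation (x : Qb) ≤ 1 := (A.valuation_le_one_iff _).mpr hx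
  have h5 : A.valuation (x : Qb) ≠ 0 := by
    rw [Ne, map_eq_zero]
    exact fun h => hx0 (Subtype.ext h)
  have h6 : (1 : A.ValueGroup) ≤ (A.valuation (x : Qb))⁻¹ :=
    (one_le_inv₀ (zero_lt_iff.mpr h5)).mpr h4
  exact absurd h2 (not_lt.mpr h6)

/-- **Dictionary, maximal ideal.** -/
theorem valuation_lt_one_iff (hv : v.asIdeal = primeUnder F A) (x : F) :
    v.valuation F x < 1 ↔ A.valuation (x : Qb) < 1 := by
  refine ⟨valuation_lt_one_of_lt_one hv x, fun hx => ?_⟩
  by_contra hcon
  rw [not_lt] at hcon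
  have hx0 : x ≠ 0 := by
    rintro rfl
    simp at hcon
  have h1 : v.valuation F x⁻¹ ≤ 1 := by
    rw [map_inv₀]
    exact inv_le_one_of_one_le₀ hcon
  have h2 := mem_of_valuation_le_one hv x⁻¹ h1
  rw [← A.valuation_le_one_iff, coe_inv_eq, map_inv₀] at h2
  have h5 : A.valuation (x : Qb) ≠ 0 := by
    rw [Ne, map_eq_zero]
    exact fun h => hx0 (Subtype.ext h)
  have h6 : (1 : A.ValueGroup) < (A.valuation (x : Qb))⁻¹ :=
    (one_lt_inv₀ (zero_lt_iff.mpr h5)).mpr hx
  exact absurd h2 (not_le.mpr h6)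

/-- **Dictionary, units.** -/
theorem valuation_eq_one_iff (hv : v.asIdeal = primeUnder F A) (x : F) :
    v.valuation F x = 1 ↔ A.valuation (x : Qb) = 1 := by
  constructor
  · intro h
    refine le_antisymm ((A.valuation_le_one_iff _).mpr ((valuation_le_one_iff hv x).mp h.le))
      (not_lt.mp fun h' => ?_)
    exact absurd ((valuation_lt_one_iff hv x).mpr h') (by rw [h]; exact lt_irrefl _)
  · intro h
    refine le_antisymm ((valuation_le_one_iff hv x).mpr ((A.valuation_le_one_iff _).mp h.le))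
      (not_lt.mp fun h' => ?_)
    exact absurd ((valuation_lt_one_iff hv x).mp h') (by rw [h]; exact lt_irrefl _)

/-- **Dictionary, comparison of valuations.** -/
theorem valuation_le_iff (hv : v.asIdeal = primeUnder F A) (x y : F) :
    v.valuation F x ≤ v.valuation F y ↔ A.valuation (x : Qb) ≤ A.valuation (y : Qb) := by
  by_cases hy : y = 0
  · subst hy
    have h0 : ((0 : F) : Qb) = 0 := rfl
    rw [h0, map_zero, map_zero, le_zero_iff, le_zero_iff, map_eq_zero, map_eq_zero]
    exact ⟨fun h => by rw [h]; rfl, fun h => Subtype.ext h⟩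
  · have hy1 : 0 < v.valuation F y := by
      rw [zero_lt_iff, Ne, map_eq_zero]
      exact hy
    have hy2 : 0 < A.valuation (y : Qb) := by
      rw [zero_lt_iff, Ne, map_eq_zero]
      exact fun h => hy (Subtype.ext h)
    have h := valuation_le_one_iff hv (x / y)
    rw [map_div₀, div_le_one₀ hy1, ← A.valuation_le_one_iff, coe_div_eq, map_div₀,
      div_le_one₀ hy2] at h
    exact h

theorem valuation_lt_iff (hv : v.asIdeal = primeUnder F A) (x y : F) :
    v.valuation F x < v.valuation F y ↔ A.valuation (x : Qb) < A.valuation (y : Qb) := by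
  rw [← not_le, ← not_le, valuation_le_iff hv]

theorem valuation_eq_iff (hv : v.asIdeal = primeUnder F A) (x y : F) :
    v.valuation F x = v.valuation F y ↔ A.valuation (x : Qb) = A.valuation (y : Qb) := by
  rw [le_antisymm_iff, le_antisymm_iff, valuation_le_iff hv, valuation_le_iff hv]

/-- Every element of `F` lying in `A` is a fraction of integers of `F` with denominator a unit
of `A`. -/
theorem exists_fraction (hv : v.asIdeal = primeUnder F A) (x : F) (hx : (x : Qb) ∈ A) :
    ∃ n d : 𝓞 F, d ∉ v.asIdeal ∧ A.valuation ((d : F) : Qb) = 1 ∧ x * (d : F) = (n : F) :=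
  exists_fraction_of_valuation_le_one hv x ((valuation_le_one_iff hv x).mpr hx)

omit [NumberField F] in
theorem liesOverPrime_of_natCast_mem (hv : v.asIdeal = primeUnder F A) {ℓ : ℕ}
    (h : ((ℓ : ℕ) : 𝓞 F) ∈ v.asIdeal) : A.LiesOverPrime ℓ := by
  rw [hv] at h
  exact (natCast_mem_primeUnder_iff F A ℓ).mp h

/-- The rational prime below a prime of `𝓞 F`. -/
theorem exists_prime_natCast_mem (v : HeightOneSpectrum (𝓞 F)) :
    ∃ ℓ : ℕ, ℓ.Prime ∧ ((ℓ : ℕ) : 𝓞 F) ∈ v.asIdeal := by
  have := v.isMaximal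
  obtain ⟨p, n, -, hp, hpp, -⟩ := Ideal.exists_prime_and_absNorm_eq_pow v.asIdeal
  exact ⟨p, hpp, hp⟩

/-- **Existence.** Every prime of `𝓞 F` lies below some valuation subring of `Qb`. -/
theorem exists_valuationSubring (v : HeightOneSpectrum (𝓞 F)) :
    ∃ A : ValuationSubring Qb, v.asIdeal = primeUnder F A := by
  let φ : 𝓞 F →+* Qb := (algebraMap F Qb).comp (algebraMap (𝓞 F) F)
  have hφ : Function.Injective φ :=
    (algebraMap F Qb).injective.comp NumberField.RingOfIntegers.coe_injective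
  let I : Ideal φ.range := v.asIdeal.map φ.rangeRestrict
  have hI : I ≠ ⊤ := by
    intro h
    have h1 : (1 : φ.range) ∈ I := by
      rw [h]
      trivial
    rw [Ideal.mem_map_iff_of_surjective _ φ.rangeRestrict_surjective] at h1
    obtain ⟨x, hx, hx1⟩ := h1
    have hx2 : x = 1 := by
      apply hφ
      have := congrArg Subtype.val hx1
      rw [map_one]
      exact this
    rw [hx2] at hx
    exact v.isPrime.ne_top ((Ideal.eq_top_iff_one _).mpr hx)
  obtain ⟨B, -, hIB⟩ := Ideal.image_subset_nonunits_valuationSubring I hI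
  have hmem : ∀ m ∈ v.asIdeal, B.valuation ((m : F) : Qb) < 1 := by
    intro m hm
    exact B.mem_nonunits_iff.mp (hIB ⟨φ.rangeRestrict m, Ideal.mem_map_of_mem _ hm, rfl⟩)
  refine ⟨B, ?_⟩
  ext x
  rw [mem_primeUnder]
  refine ⟨hmem x, fun hx => ?_⟩
  by_contra hcon
  obtain ⟨y, m, hm, hym⟩ := v.isMaximal.exists_inv hcon
  have h1 : ((y : F) : Qb) * ((x : F) : Qb) + ((m : F) : Qb) = 1 := by
    have := congrArg φ hym
    rw [map_add, map_mul, map_one] at this
    exact this
  have h2 : B.valuation (((y : F) : Qb) * ((x : F) : Qb)) < 1 := by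
    rw [map_mul]
    calc B.valuation ((y : F) : Qb) * B.valuation ((x : F) : Qb)
        ≤ 1 * B.valuation ((x : F) : Qb) := by
          gcongr
          exact valuation_coe_le_one F B y
      _ < 1 := by rw [one_mul]; exact hx
  have h3 := B.valuation.map_add_lt h2 (hmem m hm)
  rw [h1, map_one] at h3
  exact lt_irrefl _ h3

/-- **Existence, with the rational prime.** -/
theorem exists_valuationSubring_liesOver (v : HeightOneSpectrum (𝓞 F)) :
    ∃ (ℓ : ℕ) (A : ValuationSubring Qb), ℓ.Prime ∧ ((ℓ : ℕ) : 𝓞 F) ∈ v.asIdeal ∧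
      A.LiesOverPrime ℓ ∧ v.asIdeal = primeUnder F A := by
  obtain ⟨ℓ, hℓ, hℓv⟩ := exists_prime_natCast_mem v
  obtain ⟨A, hA⟩ := exists_valuationSubring v
  exact ⟨ℓ, A, hℓ, hℓv, liesOverPrime_of_natCast_mem hA hℓv, hA⟩

variable (F) in
/-- The height-one prime of `𝓞 F` below a valuation subring lying over a prime number. -/
noncomputable def placeUnder (A : ValuationSubring Qb) {ℓ : ℕ} (hℓ : ℓ.Prime)
    (hA : A.LiesOverPrime ℓ) : HeightOneSpectrum (𝓞 F) :=
  ⟨primeUnder F A, primeUnder_isPrime F A, primeUnder_ne_bot F A hℓ hA⟩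

omit [NumberField F] in
theorem placeUnder_asIdeal (A : ValuationSubring Qb) {ℓ : ℕ} (hℓ : ℓ.Prime)
    (hA : A.LiesOverPrime ℓ) : (placeUnder F A hℓ hA).asIdeal = primeUnder F A := rfl

omit [NumberField F] in
theorem eq_placeUnder (hv : v.asIdeal = primeUnder F A) {ℓ : ℕ} (hℓ : ℓ.Prime)
    (hA : A.LiesOverPrime ℓ) : v = placeUnder F A hℓ hA :=
  HeightOneSpectrum.ext hv

/-- From the integrality dictionary back to the prime: if `A ∩ F` is the valuation ring of `v`,
then `v` is the prime of `𝓞 F` below `A`. -/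
theorem eq_primeUnder_of_dict (hdict : ∀ x : F, ((x : F) : Qb) ∈ A ↔ v.valuation F x ≤ 1) :
    v.asIdeal = primeUnder F A := by
  ext x
  rw [mem_primeUnder, ← v.valuation_lt_one_iff_mem (K := F)]
  change v.valuation F (x : F) < 1 ↔ _
  by_cases hx0 : (x : F) = 0
  · have h0 : (((x : F)) : Qb) = 0 := by rw [hx0]; rfl
    rw [h0, hx0, map_zero, map_zero]
    exact ⟨fun _ => zero_lt_one, fun _ => zero_lt_one⟩
  have hx0' : (((x : F)) : Qb) ≠ 0 := fun h => hx0 (Subtype.ext h)
  have h4 : A.valuation ((x : F) : Qb) ≠ 0 := by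
    rw [Ne, map_eq_zero]
    exact hx0'
  have hv4 : v.valuation F (x : F) ≠ 0 := by
    rw [Ne, map_eq_zero]
    exact hx0
  have h1 : v.valuation F (x : F) < 1 ↔ ¬ (v.valuation F ((x : F)⁻¹) ≤ 1) := by
    rw [map_inv₀, not_le, one_lt_inv₀ (zero_lt_iff.mpr hv4)]
  have h2 : A.valuation ((x : F) : Qb) < 1 ↔ ¬ ((((x : F)⁻¹ : F)) : Qb) ∈ A := by
    rw [← A.valuation_le_one_iff, coe_inv_eq, map_inv₀, not_le, one_lt_inv₀ (zero_lt_iff.mpr h4)]
  rw [h1, h2, hdict]

/-- **Existence, consumer shape** (`Interface.ValRingStmt`): every prime of a number field inside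
`Qb` is cut out by a valuation subring of `Qb`. -/
theorem exists_valuationSubring_dict (K : IntermediateField ℚ Qb) [NumberField K]
    (v : HeightOneSpectrum (𝓞 K)) :
    ∃ A : ValuationSubring Qb, ∀ x : K, ((x : K) : Qb) ∈ A ↔ v.valuation K x ≤ 1 := by
  obtain ⟨A, hA⟩ := exists_valuationSubring v
  exact ⟨A, fun x => (valuation_le_one_iff hA x).symm⟩

/-- **Existence, full package.** -/
theorem exists_valuationSubring_full (K : IntermediateField ℚ Qb) [NumberField K]
    (v : HeightOneSpectrum (𝓞 K)) :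
    ∃ (ℓ : ℕ) (A : ValuationSubring Qb), ℓ.Prime ∧ ((ℓ : ℕ) : 𝓞 K) ∈ v.asIdeal ∧
      A.LiesOverPrime ℓ ∧ v.asIdeal = primeUnder K A ∧
      (∀ x : K, ((x : K) : Qb) ∈ A ↔ v.valuation K x ≤ 1) ∧
      (∀ x : K, ((x : K) : Qb) ∈ A.nonunits ↔ v.valuation K x < 1) ∧
      (∀ x : K, A.valuation ((x : K) : Qb) = 1 ↔ v.valuation K x = 1) := by
  obtain ⟨ℓ, A, hℓ, hℓv, hAℓ, hA⟩ := exists_valuationSubring_liesOver v
  refine ⟨ℓ, A, hℓ, hℓv, hAℓ, hA, fun x => (valuation_le_one_iff hA x).symm, fun x => ?_,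
    fun x => (valuation_eq_one_iff hA x).symm⟩
  rw [ValuationSubring.mem_nonunits_iff]
  exact (valuation_lt_one_iff hA x).symm

end Dictionary

end Fermat.Agent.S14.Wiring.ValRing
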