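import Fermat.Agent.S14.Defs
import Fermat.Agent.S14.Base
import Fermat.Prelude.Def_ExtCitation_KummerBridge

set_option autoImplicit false

open scoped NumberField
open Fermat.Agent.S14.Defs

namespace Fermat.Agent.S14.Wiring.Kummer

local notation "Qb" => AlgebraicClosure ℚ
local notation "Gq" => (AlgebraicClosure ℚ ≃ₐ[ℚ] AlgebraicClosure ℚ)

/-- If `g ^ m ∈ N` and `g ^ p ∈ N` with `m` prime to `p`, then `g ∈ N`. -/
theorem mem_of_pow_mem_of_coprime {G : Type*} [Group G] (N : Subgroup G) (g : G) {m p : ℕ}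
    (hmp : Nat.Coprime m p) (hm : g ^ m ∈ N) (hp : g ^ p ∈ N) : g ∈ N := by
  have h1 : g ^ (Nat.gcd m p : ℤ) ∈ N := by
    rw [Nat.gcd_eq_gcd_ab, zpow_add, zpow_mul, zpow_mul]
    refine N.mul_mem (N.zpow_mem ?_ _) (N.zpow_mem ?_ _)
    · simpa using hm
    · simpa using hp
  rw [hmp.gcd_eq_one] at h1
  simpa using h1

/-- Dedekind independence: a Lagrange resolvent which does not vanish. -/
theorem exists_resolvent_ne_zero {p : ℕ} (hp : p.Prime) (ζ : Qb)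
    (N : Subgroup Gq) (hNcl : IsClosed (N : Set Gq))
    (g0 : Gq) (hg0N : g0 ∉ N) (hpow : g0 ^ p ∈ N) :
    ∃ y : Qb, (∀ n ∈ N, n y = y) ∧ ∑ i ∈ Finset.range p, ζ⁻¹ ^ i * (g0 ^ i) y ≠ 0 := by
  have hgal := Base.isGalois
  set L : IntermediateField ℚ Qb := IntermediateField.fixedField N with hL
  have hfix : L.fixingSubgroup = N :=
    InfiniteGalois.fixingSubgroup_fixedField ⟨N, hNcl⟩
  -- the monoid homs `g0 ^ i` restricted to `L`
  let f : Fin p → (L →* Qb) := fun i =>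
    ((g0 ^ (i : ℕ) : Gq) : Qb →* Qb).comp (L.val : L →* Qb)
  have hf_apply : ∀ (i : Fin p) (y : L), f i y = (g0 ^ (i : ℕ)) (y : Qb) := fun i y => rfl
  have hinj : Function.Injective f := by
    intro i k hik
    by_contra hne
    wlog hlt : (i : ℕ) < (k : ℕ) generalizing i k
    · exact this hik.symm (Ne.symm hne) (lt_of_le_of_ne (not_lt.mp hlt)
        (fun h => hne (Fin.ext h.symm)))
    have hmem : g0 ^ ((k : ℕ) - (i : ℕ)) ∈ N := by
      rw [← hfix]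
      rw [IntermediateField.mem_fixingSubgroup_iff]
      intro y hy
      have h1 : (g0 ^ (i : ℕ)) y = (g0 ^ (k : ℕ)) y := by
        have := congrArg (fun φ : L →* Qb => φ ⟨y, hy⟩) hik
        simpa [hf_apply] using this
      have h2 : g0 ^ (k : ℕ) = g0 ^ (i : ℕ) * g0 ^ ((k : ℕ) - (i : ℕ)) := by
        rw [← pow_add]; congr 1; omega
      rw [h2, AlgEquiv.mul_apply] at h1
      exact ((g0 ^ (i : ℕ)).injective h1).symm
    have hcop : Nat.Coprime ((k : ℕ) - (i : ℕ)) p := by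
      rw [Nat.coprime_comm]
      refine (Nat.Prime.coprime_iff_not_dvd hp).mpr ?_
      intro hdvd
      have := Nat.le_of_dvd (by omega) hdvd
      have := k.isLt
      omega
    exact hg0N (mem_of_pow_mem_of_coprime N g0 hcop hmem hpow)
  have hli : LinearIndependent Qb (fun i : Fin p => (f i : L → Qb)) :=
    (linearIndependent_monoidHom L Qb).comp f hinj
  by_contra hcon
  push Not at hcon
  have hzero : ∑ i : Fin p, (ζ⁻¹ ^ (i : ℕ)) • (f i : L → Qb) = 0 := by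
    funext y
    have h0 := hcon (y : Qb) (fun n hn => by
      have : (y : Qb) ∈ IntermediateField.fixedField N := y.2
      rw [IntermediateField.mem_fixedField_iff] at this
      exact this n hn)
    rw [Finset.sum_apply]
    simp only [Pi.smul_apply, smul_eq_mul, Pi.zero_apply, hf_apply]
    rw [← h0, Finset.sum_range]
  have hcoef := (Fintype.linearIndependent_iff.mp hli) (fun i => ζ⁻¹ ^ (i : ℕ)) hzero
    ⟨0, hp.pos⟩
  simp at hcoef


/-- W2 (core form): the Kummer generator of the kernel field.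

`N` is a closed normal subgroup of `Gal(ℚ̄/ℚ)` contained in `G_K = K.fixingSubgroup`,
`G_K / N` is generated by the class of `g0` (of order `p`), and conjugation by `s` acts on
`g0` modulo `N` as the `e`-th power whenever `s ζ = ζ ^ e`. -/
theorem exists_kummer_generator {p : ℕ} [Fact p.Prime]
    (K : IntermediateField ℚ (AlgebraicClosure ℚ)) [NumberField K]
    (ζ : K) (hζ : IsPrimitiveRoot ζ p)
    (N : Subgroup (AlgebraicClosure ℚ ≃ₐ[ℚ] AlgebraicClosure ℚ)) (hNn : N.Normal)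
    (hNcl : IsClosed (N : Set (AlgebraicClosure ℚ ≃ₐ[ℚ] AlgebraicClosure ℚ)))
    (hNK : N ≤ K.fixingSubgroup)
    (g0 : AlgebraicClosure ℚ ≃ₐ[ℚ] AlgebraicClosure ℚ) (hg0K : g0 ∈ K.fixingSubgroup)
    (hg0N : g0 ∉ N) (hpow : g0 ^ p ∈ N)
    (hcyc : ∀ τ ∈ K.fixingSubgroup, ∃ k : ℕ, (g0 ^ k)⁻¹ * τ ∈ N)
    (hconj : ∀ (s : AlgebraicClosure ℚ ≃ₐ[ℚ] AlgebraicClosure ℚ) (e : ℕ),
      s (ζ : AlgebraicClosure ℚ) = (ζ : AlgebraicClosure ℚ) ^ e →
        s⁻¹ * g0 * s * (g0 ^ e)⁻¹ ∈ N) :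
    ∃ (α : K) (θ : AlgebraicClosure ℚ), α ≠ 0 ∧ θ ^ p = (α : AlgebraicClosure ℚ) ∧
      (¬ ∃ γ : K, α = γ ^ p) ∧ EigenElt p ζ α ∧
      g0 θ = (ζ : AlgebraicClosure ℚ) * θ ∧ (∀ σ ∈ N, σ θ = θ) ∧
      (∀ σ ∈ K.fixingSubgroup, σ θ = θ → σ ∈ N) := by
  have hp : p.Prime := Fact.out
  have hgal := Base.isGalois
  have hnormal : Normal ℚ Qb := hgal.to_normal
  -- `ζ` in `Qb`
  set z : Qb := (ζ : Qb) with hz
  have hzprim : IsPrimitiveRoot z p := hζ.map_of_injective (f := K.val) K.val.injective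
  have hz0 : z ≠ 0 := hzprim.ne_zero hp.ne_zero
  have hzp : z ^ p = 1 := hzprim.pow_eq_one
  have hz1 : z ≠ 1 := hzprim.ne_one hp.one_lt
  -- elements of `G_K` fix `z`
  have hfixz : ∀ τ ∈ K.fixingSubgroup, τ z = z := fun τ hτ =>
    (IntermediateField.mem_fixingSubgroup_iff K τ).mp hτ z ζ.2
  have hg0z : g0 z = z := hfixz g0 hg0K
  -- the resolvent
  obtain ⟨y, hyN, hθ0⟩ := exists_resolvent_ne_zero hp z N hNcl g0 hg0N hpow
  set θ : Qb := ∑ i ∈ Finset.range p, z⁻¹ ^ i * (g0 ^ i) y with hθdef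
  have hg0py : (g0 ^ p) y = y := hyN _ hpow
  -- `g0 θ = z θ`
  have hg0θ : g0 θ = z * θ := by
    have h1 : g0 θ = ∑ i ∈ Finset.range p, z⁻¹ ^ i * (g0 ^ (i + 1)) y := by
      rw [hθdef, map_sum]
      refine Finset.sum_congr rfl fun i _ => ?_
      rw [map_mul, map_pow, map_inv₀, hg0z, pow_succ', AlgEquiv.mul_apply]
    have h2 : z * θ = ∑ i ∈ Finset.range p, z⁻¹ ^ i * z * (g0 ^ i) y := by
      rw [hθdef, Finset.mul_sum]
      refine Finset.sum_congr rfl fun i _ => ?_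
      ring
    have h3 : ∑ i ∈ Finset.range p, z⁻¹ ^ i * z * (g0 ^ i) y
        = ∑ i ∈ Finset.range p, z⁻¹ ^ i * (g0 ^ (i + 1)) y := by
      have hA : ∑ i ∈ Finset.range (p + 1), z⁻¹ ^ i * z * (g0 ^ i) y
          = ∑ i ∈ Finset.range p, z⁻¹ ^ i * (g0 ^ (i + 1)) y + z * y := by
        rw [Finset.sum_range_succ']
        congr 1
        · refine Finset.sum_congr rfl fun i _ => ?_
          rw [pow_succ, mul_assoc (z⁻¹ ^ i), inv_mul_cancel₀ hz0, mul_one]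
        · simp
      have hB : ∑ i ∈ Finset.range (p + 1), z⁻¹ ^ i * z * (g0 ^ i) y
          = ∑ i ∈ Finset.range p, z⁻¹ ^ i * z * (g0 ^ i) y + z * y := by
        rw [Finset.sum_range_succ, hg0py, inv_pow, hzp, inv_one, one_mul]
      exact add_right_cancel (hB.symm.trans hA)
    rw [h1, h2, h3]
  -- `N` fixes `θ`
  have hNθ : ∀ σ ∈ N, σ θ = θ := by
    intro σ hσ
    have hσz : σ z = z := hfixz σ (hNK hσ)
    rw [hθdef, map_sum]
    refine Finset.sum_congr rfl fun i _ => ?_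
    rw [map_mul, map_pow, map_inv₀, hσz]
    congr 1
    have hconjmem : (g0 ^ i)⁻¹ * σ * (g0 ^ i) ∈ N := by
      have := hNn.conj_mem σ hσ (g0 ^ i)⁻¹
      simpa using this
    have h4 : σ * g0 ^ i = g0 ^ i * ((g0 ^ i)⁻¹ * σ * (g0 ^ i)) := by group
    calc σ ((g0 ^ i) y) = (σ * g0 ^ i) y := rfl
      _ = (g0 ^ i * ((g0 ^ i)⁻¹ * σ * (g0 ^ i))) y := by rw [h4]
      _ = (g0 ^ i) (((g0 ^ i)⁻¹ * σ * (g0 ^ i)) y) := rfl
      _ = (g0 ^ i) y := by rw [hyN _ hconjmem]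
  -- action of `G_K` on `θ`
  have hg0kθ : ∀ k : ℕ, (g0 ^ k) θ = z ^ k * θ := by
    intro k
    induction k with
    | zero => simp
    | succ k ih =>
      rw [pow_succ', AlgEquiv.mul_apply, ih, map_mul, map_pow, hg0z, hg0θ, pow_succ]
      ring
  have hGKθ : ∀ τ ∈ K.fixingSubgroup, ∃ k : ℕ, (g0 ^ k)⁻¹ * τ ∈ N ∧ τ θ = z ^ k * θ := by
    intro τ hτ
    obtain ⟨k, hk⟩ := hcyc τ hτ
    refine ⟨k, hk, ?_⟩
    have h5 : τ = g0 ^ k * ((g0 ^ k)⁻¹ * τ) := by group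
    calc τ θ = (g0 ^ k * ((g0 ^ k)⁻¹ * τ)) θ := by rw [← h5]
      _ = (g0 ^ k) (((g0 ^ k)⁻¹ * τ) θ) := rfl
      _ = (g0 ^ k) θ := by rw [hNθ _ hk]
      _ = z ^ k * θ := hg0kθ k
  -- `θ ^ p ∈ K`
  have hfixedK : IntermediateField.fixedField K.fixingSubgroup = K :=
    InfiniteGalois.fixedField_fixingSubgroup K
  have hmemK : ∀ x : Qb, (∀ τ ∈ K.fixingSubgroup, τ x = x) → x ∈ K := by
    intro x hx
    rw [← hfixedK, IntermediateField.mem_fixedField_iff]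
    exact hx
  have hθpK : θ ^ p ∈ K := by
    refine hmemK _ fun τ hτ => ?_
    obtain ⟨k, -, hk⟩ := hGKθ τ hτ
    rw [map_pow, hk, mul_pow, ← pow_mul, mul_comm k p, pow_mul, hzp, one_pow, one_mul]
  refine ⟨⟨θ ^ p, hθpK⟩, θ, ?_, rfl, ?_, ?_, hg0θ, hNθ, ?_⟩
  · -- `α ≠ 0`
    intro h0
    have : θ ^ p = 0 := congrArg (fun a : K => (a : Qb)) h0
    exact hθ0 (pow_eq_zero_iff hp.ne_zero |>.mp this)
  · -- not a `p`-th power
    rintro ⟨γ, hγ⟩
    have hγ' : θ ^ p = (γ : Qb) ^ p := congrArg (fun a : K => (a : Qb)) hγ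
    have hγ0 : (γ : Qb) ≠ 0 := by
      intro h
      rw [h, zero_pow hp.ne_zero] at hγ'
      exact hθ0 (pow_eq_zero_iff hp.ne_zero |>.mp hγ')
    have hone : (θ / (γ : Qb)) ^ p = 1 := by
      rw [div_pow, hγ', div_self (pow_ne_zero _ hγ0)]
    obtain ⟨i, -, hi⟩ := hzprim.eq_pow_of_pow_eq_one hone
    have hθK : θ ∈ K := by
      have : θ = z ^ i * (γ : Qb) := by
        rw [hi, div_mul_cancel₀ _ hγ0]
      rw [this]
      exact K.mul_mem (pow_mem ζ.2 i) γ.2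
    have hfixθ : g0 θ = θ := (IntermediateField.mem_fixingSubgroup_iff K g0).mp hg0K θ hθK
    rw [hg0θ] at hfixθ
    exact hz1 (mul_right_cancel₀ hθ0 (hfixθ.trans (one_mul θ).symm))
  · -- `EigenElt`
    intro σ n hσn
    let s : Gq := σ.liftNormal Qb
    have hs : ∀ x : K, s (x : Qb) = ((σ x : K) : Qb) := fun x => σ.liftNormal_commutes Qb x
    have hsz : s z = z ^ n := by
      rw [hz, hs ζ, hσn]; rfl
    have hm' := hconj s n hsz
    have hsθ0 : s θ ≠ 0 := by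
      intro h
      exact hθ0 (by simpa using h)
    set β' : Qb := s θ / θ ^ (n ^ 2) with hβ'
    -- `g0` fixes `β'`
    have hg0sθ : g0 (s θ) = z ^ (n ^ 2) * s θ := by
      have h6 : g0 * s = s * ((s⁻¹ * g0 * s * (g0 ^ n)⁻¹) * g0 ^ n) := by group
      calc g0 (s θ) = (g0 * s) θ := rfl
        _ = (s * ((s⁻¹ * g0 * s * (g0 ^ n)⁻¹) * g0 ^ n)) θ := by rw [← h6]
        _ = s ((s⁻¹ * g0 * s * (g0 ^ n)⁻¹) ((g0 ^ n) θ)) := rfl
        _ = s ((s⁻¹ * g0 * s * (g0 ^ n)⁻¹) (z ^ n * θ)) := by rw [hg0kθ n]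
        _ = s (z ^ n * θ) := by
            rw [map_mul, map_pow, hfixz _ (hNK hm'), hNθ _ hm']
        _ = z ^ (n ^ 2) * s θ := by
            rw [map_mul, map_pow, hsz, ← pow_mul, sq]
    have hg0β : g0 β' = β' := by
      rw [hβ', map_div₀, map_pow, hg0sθ, hg0θ, mul_pow]
      field_simp
    have hNβ : ∀ m ∈ N, m β' = β' := by
      intro m hm
      have hconjmem : s⁻¹ * m * s ∈ N := by
        have := hNn.conj_mem m hm s⁻¹
        simpa using this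
      have h7 : m * s = s * (s⁻¹ * m * s) := by group
      have h8 : m (s θ) = s θ := by
        calc m (s θ) = (m * s) θ := rfl
          _ = (s * (s⁻¹ * m * s)) θ := by rw [← h7]
          _ = s ((s⁻¹ * m * s) θ) := rfl
          _ = s θ := by rw [hNθ _ hconjmem]
      rw [hβ', map_div₀, map_pow, h8, hNθ m hm]
    have hg0kβ : ∀ k : ℕ, (g0 ^ k) β' = β' := by
      intro k
      induction k with
      | zero => simp
      | succ k ih => rw [pow_succ', AlgEquiv.mul_apply, ih, hg0β]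
    have hβK : β' ∈ K := by
      refine hmemK _ fun τ hτ => ?_
      obtain ⟨k, hk⟩ := hcyc τ hτ
      have h5 : τ = g0 ^ k * ((g0 ^ k)⁻¹ * τ) := by group
      calc τ β' = (g0 ^ k * ((g0 ^ k)⁻¹ * τ)) β' := by rw [← h5]
        _ = (g0 ^ k) (((g0 ^ k)⁻¹ * τ) β') := rfl
        _ = (g0 ^ k) β' := by rw [hNβ _ hk]
        _ = β' := hg0kβ k
    refine ⟨⟨β', hβK⟩, ?_⟩
    apply Subtype.ext
    have hlhs : ((σ ⟨θ ^ p, hθpK⟩ : K) : Qb) = (s θ) ^ p := by
      rw [← hs, map_pow]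
    rw [hlhs]
    push_cast
    rw [hβ', div_pow, ← pow_mul, ← pow_mul, mul_comm p (n ^ 2),
      mul_div_cancel₀ _ (pow_ne_zero _ hθ0)]
  · -- converse
    intro σ hσ hσθ
    obtain ⟨k, hk, hkθ⟩ := hGKθ σ hσ
    rw [hσθ] at hkθ
    have hzk : z ^ k = 1 := by
      have : 1 * θ = z ^ k * θ := by rw [one_mul]; exact hkθ
      exact (mul_right_cancel₀ hθ0 this).symm
    obtain ⟨d, rfl⟩ := (hzprim.pow_eq_one_iff_dvd k).mp hzk
    have hg0k : g0 ^ (p * d) ∈ N := by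
      rw [pow_mul]; exact N.pow_mem hpow d
    have h5 : σ = g0 ^ (p * d) * ((g0 ^ (p * d))⁻¹ * σ) := by group
    rw [h5]
    exact N.mul_mem hg0k hk


/-- The mod `p` cyclotomic exponent describes the action on every `p`-th root of unity. -/
theorem map_eq_pow_cycloExp {p : ℕ} [Fact p.Prime]
    (s : AlgebraicClosure ℚ ≃ₐ[ℚ] AlgebraicClosure ℚ) (z : AlgebraicClosure ℚ)
    (hz : z ^ p = 1) : s z = z ^ (ExtCitation.cycloExp p s) := by
  have hp : p.Prime := Fact.out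
  have : NeZero p := ⟨hp.ne_zero⟩
  let t : Qbˣ := Units.ofPowEqOne z p hz hp.ne_zero
  have ht : t ∈ rootsOfUnity p Qb := by
    rw [mem_rootsOfUnity]
    exact Units.pow_ofPowEqOne hz hp.ne_zero
  have h := modularCyclotomicCharacter.spec Qb (ExtCitation.card_rootsOfUnity_eq_self p)
    (s : Qb ≃+* Qb) ht
  exact h

/-- `(cycloChar p s : ZMod p)` is the exponent of the action of `s` on `ζ_p`. -/
theorem natCast_eq_cycloChar_of_map_eq_pow {p : ℕ} [Fact p.Prime]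
    (s : AlgebraicClosure ℚ ≃ₐ[ℚ] AlgebraicClosure ℚ) (z : AlgebraicClosure ℚ)
    (hz : IsPrimitiveRoot z p) (e : ℕ) (he : s z = z ^ e) :
    (e : ZMod p) = (ExtCitation.cycloChar p s : ZMod p) := by
  rw [ExtCitation.coe_cycloChar]
  have h1 : z ^ e = z ^ (ExtCitation.cycloExp p s) := by
    rw [← he, map_eq_pow_cycloExp s z hz.pow_eq_one]
  have hp : p.Prime := Fact.out
  have hz0 : z ≠ 0 := hz.ne_zero hp.ne_zero
  have h2 : z ^ ((e : ℤ) - (ExtCitation.cycloExp p s : ℤ)) = 1 := by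
    rw [zpow_sub₀ hz0, zpow_natCast, zpow_natCast, h1, div_self (pow_ne_zero _ hz0)]
  have h3 := (hz.zpow_eq_one_iff_dvd _).mp h2
  have h4 := (ZMod.intCast_zmod_eq_zero_iff_dvd _ p).mpr h3
  push_cast at h4
  exact sub_eq_zero.mp h4

/-- For `K = ℚ(ζ_p)`: the kernel of the mod `p` cyclotomic character is `Gal(ℚ̄/K)`. -/
theorem cycloChar_eq_one_iff {p : ℕ} [Fact p.Prime]
    (K : IntermediateField ℚ (AlgebraicClosure ℚ)) [IsCyclotomicExtension {p} ℚ K]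
    (ζ : K) (hζ : IsPrimitiveRoot ζ p)
    (σ : AlgebraicClosure ℚ ≃ₐ[ℚ] AlgebraicClosure ℚ) :
    ExtCitation.cycloChar p σ = 1 ↔ σ ∈ K.fixingSubgroup := by
  have hp : p.Prime := Fact.out
  have : NeZero p := ⟨hp.ne_zero⟩
  have : Fact (1 < p) := ⟨hp.one_lt⟩
  have hzprim : IsPrimitiveRoot (ζ : Qb) p := hζ.map_of_injective (f := K.val) K.val.injective
  constructor
  · intro h
    have he : ExtCitation.cycloExp p σ = 1 := by
      rw [← ExtCitation.val_cycloChar, h]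
      simp [ZMod.val_one]
    have hσz : σ (ζ : Qb) = (ζ : Qb) := by
      rw [map_eq_pow_cycloExp σ _ hzprim.pow_eq_one, he, pow_one]
    rw [IntermediateField.mem_fixingSubgroup_iff]
    intro x hx
    have htop : Algebra.adjoin ℚ {ζ} = ⊤ :=
      IsCyclotomicExtension.adjoin_primitive_root_eq_top hζ
    have hmem : (⟨x, hx⟩ : K) ∈ Algebra.adjoin ℚ {ζ} := by rw [htop]; trivial
    have key : ∀ y : K, y ∈ Algebra.adjoin ℚ {ζ} → σ (y : Qb) = (y : Qb) := by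
      intro y hy
      induction hy using Algebra.adjoin_induction with
      | mem y hy =>
        rw [Set.mem_singleton_iff] at hy
        rw [hy]; exact hσz
      | algebraMap r =>
        change σ (algebraMap ℚ Qb r) = algebraMap ℚ Qb r
        exact σ.commutes r
      | add y w _ _ hy hw =>
        push_cast
        rw [map_add, hy, hw]
      | mul y w _ _ hy hw =>
        push_cast
        rw [map_mul, hy, hw]
    exact key ⟨x, hx⟩ hmem
  · intro h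
    have hσz : σ (ζ : Qb) = (ζ : Qb) ^ 1 := by
      rw [pow_one]
      exact (IntermediateField.mem_fixingSubgroup_iff K σ).mp h _ ζ.2
    have h1 := natCast_eq_cycloChar_of_map_eq_pow σ _ hzprim 1 hσz
    apply Units.ext
    rw [← h1]
    simp


/-- W2 (cocycle form). `b : Gal(ℚ̄/ℚ) → 𝔽_p` is the cocycle of the extension
(`σ v₀ = χ(σ) v₀ + b(σ) e₁`), `N = {χ = 1, b = 0}` is the kernel of the action on `V`. -/
theorem exists_kummer_generator_of_cocycle {p : ℕ} [Fact p.Prime]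
    (K : IntermediateField ℚ (AlgebraicClosure ℚ)) [NumberField K]
    [IsCyclotomicExtension {p} ℚ K]
    (ζ : K) (hζ : IsPrimitiveRoot ζ p)
    (N : Subgroup (AlgebraicClosure ℚ ≃ₐ[ℚ] AlgebraicClosure ℚ)) (hNn : N.Normal)
    (hNcl : IsClosed (N : Set (AlgebraicClosure ℚ ≃ₐ[ℚ] AlgebraicClosure ℚ)))
    (b : (AlgebraicClosure ℚ ≃ₐ[ℚ] AlgebraicClosure ℚ) → ZMod p)
    (hb_mul : ∀ σ τ : AlgebraicClosure ℚ ≃ₐ[ℚ] AlgebraicClosure ℚ,
      b (σ * τ) = (ExtCitation.cycloChar p τ : ZMod p) * b σ + b τ)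
    (hN : ∀ σ : AlgebraicClosure ℚ ≃ₐ[ℚ] AlgebraicClosure ℚ,
      σ ∈ N ↔ (ExtCitation.cycloChar p σ = 1 ∧ b σ = 0))
    (hb_ne : ∃ τ : AlgebraicClosure ℚ ≃ₐ[ℚ] AlgebraicClosure ℚ,
      ExtCitation.cycloChar p τ = 1 ∧ b τ ≠ 0) :
    ∃ (α : K) (θ : AlgebraicClosure ℚ) (g0 : AlgebraicClosure ℚ ≃ₐ[ℚ] AlgebraicClosure ℚ),
      α ≠ 0 ∧ θ ^ p = (α : AlgebraicClosure ℚ) ∧ (¬ ∃ γ : K, α = γ ^ p) ∧ EigenElt p ζ α ∧
      g0 ∈ K.fixingSubgroup ∧ b g0 = 1 ∧ g0 θ = (ζ : AlgebraicClosure ℚ) * θ ∧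
      (∀ σ ∈ N, σ θ = θ) ∧ (∀ σ ∈ K.fixingSubgroup, σ θ = θ → σ ∈ N) := by
  have hp : p.Prime := Fact.out
  have : NeZero p := ⟨hp.ne_zero⟩
  set χ := ExtCitation.cycloChar p with hχ
  have hzprim : IsPrimitiveRoot (ζ : Qb) p := hζ.map_of_injective (f := K.val) K.val.injective
  have hb1 : b 1 = 0 := by
    have h := hb_mul 1 1
    rw [mul_one, map_one, Units.val_one, one_mul] at h
    exact left_eq_add.mp h
  have hbker : ∀ σ τ : Gq, χ τ = 1 → b (σ * τ) = b σ + b τ := by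
    intro σ τ hτ
    rw [hb_mul, hτ, Units.val_one, one_mul]
  have hbpow : ∀ τ : Gq, χ τ = 1 → ∀ k : ℕ, b (τ ^ k) = (k : ZMod p) * b τ := by
    intro τ hτ k
    induction k with
    | zero => simp [hb1]
    | succ k ih =>
      rw [pow_succ, hbker _ _ hτ, ih]
      push_cast
      ring
  have hbinv : ∀ τ : Gq, χ τ = 1 → b τ⁻¹ = - b τ := by
    intro τ hτ
    have h := hbker τ⁻¹ τ hτ
    rw [inv_mul_cancel, hb1] at h
    exact eq_neg_of_add_eq_zero_left h.symm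
  obtain ⟨τ0, hτ0χ, hτ0b⟩ := hb_ne
  set c : ZMod p := (b τ0)⁻¹ with hc
  set g0 : Gq := τ0 ^ c.val with hg0
  have hχg0 : χ g0 = 1 := by rw [hg0, map_pow, hτ0χ, one_pow]
  have hbg0 : b g0 = 1 := by
    rw [hg0, hbpow τ0 hτ0χ, ZMod.natCast_zmod_val, hc, inv_mul_cancel₀ hτ0b]
  have hχpow : ∀ k : ℕ, χ (g0 ^ k) = 1 := fun k => by rw [map_pow, hχg0, one_pow]
  have hg0K : g0 ∈ K.fixingSubgroup := (cycloChar_eq_one_iff K ζ hζ g0).mp hχg0
  have hNK : N ≤ K.fixingSubgroup := fun σ hσ =>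
    (cycloChar_eq_one_iff K ζ hζ σ).mp ((hN σ).mp hσ).1
  have hg0N : g0 ∉ N := by
    intro h
    have := ((hN g0).mp h).2
    rw [hbg0] at this
    exact one_ne_zero this
  have hpow : g0 ^ p ∈ N := by
    rw [hN]
    refine ⟨hχpow p, ?_⟩
    rw [hbpow g0 hχg0, ZMod.natCast_self, zero_mul]
  have hcyc : ∀ τ ∈ K.fixingSubgroup, ∃ k : ℕ, (g0 ^ k)⁻¹ * τ ∈ N := by
    intro τ hτ
    have hχτ : χ τ = 1 := (cycloChar_eq_one_iff K ζ hζ τ).mpr hτ
    refine ⟨(b τ).val, ?_⟩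
    rw [hN]
    refine ⟨by rw [map_mul, map_inv, hχpow, hχτ]; simp, ?_⟩
    rw [hbker _ _ hχτ, hbinv _ (hχpow _), hbpow g0 hχg0, hbg0, ZMod.natCast_zmod_val]
    ring
  have hconj : ∀ (s : Gq) (e : ℕ), s (ζ : Qb) = (ζ : Qb) ^ e →
      s⁻¹ * g0 * s * (g0 ^ e)⁻¹ ∈ N := by
    intro s e hse
    have he : (e : ZMod p) = (χ s : ZMod p) :=
      natCast_eq_cycloChar_of_map_eq_pow s _ hzprim e hse
    rw [hN]
    constructor
    · rw [map_mul, map_mul, map_mul, map_inv, map_inv, hχpow, hχg0]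
      simp
    · have hχinv : χ (g0 ^ e)⁻¹ = 1 := by rw [map_inv, hχpow, inv_one]
      have h1 : b (s⁻¹ * s) = (χ s : ZMod p) * b s⁻¹ + b s := hb_mul s⁻¹ s
      rw [inv_mul_cancel, hb1] at h1
      have h2 : b (s⁻¹ * g0 * s) = (χ s : ZMod p) := by
        rw [hb_mul (s⁻¹ * g0) s, hbker _ _ hχg0, hbg0]
        linear_combination -h1
      rw [hbker _ _ hχinv, h2, hbinv _ (hχpow e), hbpow g0 hχg0, hbg0, he]
      ring
  obtain ⟨α, θ, h1, h2, h3, h4, h5, h6, h7⟩ :=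
    exists_kummer_generator K ζ hζ N hNn hNcl hNK g0 hg0K hg0N hpow hcyc hconj
  exact ⟨α, θ, g0, h1, h2, h3, h4, hg0K, hbg0, h5, h6, h7⟩

end Fermat.Agent.S14.Wiring.Kummer
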