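import Fermat.Agent.S14.Defs
import Fermat.Prelude.Def_ExtCitation_KummerBridge

/-!
# Package W of S14: the frozen sub-interfaces and their assembly

The component statements of package W are recorded as `Prop`-valued definitions:
* `KummerGenStmt p` (W1 + W2: the Kummer generator, in `V`-form),
* `UnramStmt p` (W4: divisibility of valuations away from `p`),
* `AtPStmt p` (W5: divisibility of the valuation and local `p`-th power at `p`),
* `ValRingStmt` (W3a: tool, primes of a number field versus valuation subrings of `Qb`).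

`wiring_of` assembles the conclusion of `Wiring.wiring` from the first three.  The lifting
tools W3b are `Fermat.Agent.Lib.DecompLift` / `Fermat.Agent.S14.Wiring.Lifting`.
-/

set_option autoImplicit false

open scoped NumberField nonZeroDivisors
open IsDedekindDomain Fermat.Agent.S14.Defs

namespace Fermat.Agent.S14.Wiring.Interface

local notation "Qb" => AlgebraicClosure ℚ
local notation "Gq" => (AlgebraicClosure ℚ ≃ₐ[ℚ] AlgebraicClosure ℚ)

/-- **W1 + W2** (Kummer generator, `V`-form).  A non-split admissible extension yields a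
primitive `p`-th root of unity `ζ ∈ K`, an element `α ∈ K` which is not a `p`-th power, with
the `ω²`-eigen-property, and a `p`-th root `θ` of `α` in `Qb` which is fixed by every
automorphism acting trivially on `V` (i.e. `θ` lies in the kernel field of `V`). -/
def KummerGenStmt (p : ℕ) [Fact p.Prime] : Prop :=
  3 ≤ p → ∀ (V : Type) [AddCommGroup V] [Module (ZMod p) V] [DistribMulAction Gq V]
    [SMulCommClass Gq (ZMod p) V] (C : Submodule (ZMod p) V),
    ExtCitation.IsAdmissibleExtensionCts p V C → ¬ ExtCitation.SplitsGlobally C →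
    ∀ (K : IntermediateField ℚ Qb) [NumberField K] [IsCyclotomicExtension {p} ℚ K],
    ∃ (ζ α : K) (θ : Qb), IsPrimitiveRoot ζ p ∧ α ≠ 0 ∧ θ ^ p = ((α : K) : Qb) ∧
      (¬ ∃ γ : K, α = γ ^ p) ∧ EigenElt p ζ α ∧
      ∀ σ : Gq, (∀ v : V, σ • v = v) → σ θ = θ

/-- **W4** (away from `p`).  If every inertia group at every `ℓ ≠ p` fixes a `p`-th root `θ`
of `α ∈ K`, then `p` divides the valuation of `α` at every prime `v` of `K` not above `p`. -/
def UnramStmt (p : ℕ) [Fact p.Prime] : Prop :=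
  3 ≤ p → ∀ (K : IntermediateField ℚ Qb) [NumberField K] [IsCyclotomicExtension {p} ℚ K]
    (ζ : K), IsPrimitiveRoot ζ p → ∀ (θ : Qb) (α : K), α ≠ 0 → θ ^ p = ((α : K) : Qb) →
    (∀ ℓ : ℕ, ℓ.Prime → ℓ ≠ p → ∀ A : ValuationSubring Qb, A.LiesOverPrime ℓ →
        ∀ σ ∈ A.inertiaSubgroupIn ℚ, σ θ = θ) →
    ∀ v : HeightOneSpectrum (𝓞 K), ((p : ℕ) : 𝓞 K) ∉ v.asIdeal →
      ∃ x : K, x ≠ 0 ∧ v.valuation K (α * x ^ p) = 1

/-- **W5** (at `p`).  If every element of every decomposition group at `p` which fixes `K`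
pointwise fixes a `p`-th root `θ` of `α ∈ K`, then at every prime `v` of `K` above `p` the
valuation of `α` is divisible by `p` and `α` is a `p`-th power modulo `v ^ 3` (up to `p`-th
powers). -/
def AtPStmt (p : ℕ) [Fact p.Prime] : Prop :=
  3 ≤ p → ∀ (K : IntermediateField ℚ Qb) [NumberField K] [IsCyclotomicExtension {p} ℚ K]
    (ζ : K), IsPrimitiveRoot ζ p → ∀ (θ : Qb) (α : K), α ≠ 0 → θ ^ p = ((α : K) : Qb) →
    (∀ A : ValuationSubring Qb, A.LiesOverPrime p →
        ∀ σ ∈ A.decompositionSubgroup ℚ, (∀ x : K, σ (x : Qb) = (x : Qb)) → σ θ = θ) →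
    ∀ v : HeightOneSpectrum (𝓞 K), ((p : ℕ) : 𝓞 K) ∈ v.asIdeal →
      (∃ x : K, x ≠ 0 ∧ v.valuation K (α * x ^ p) = 1) ∧
      (∃ x : K, v.valuation K (α * x ^ p - 1) ≤ WithZero.exp (-3 : ℤ))

/-- **W3a** (tool): every prime of a number field inside `Qb` is cut out by a valuation
subring of `Qb`. -/
def ValRingStmt : Prop :=
  ∀ (K : IntermediateField ℚ Qb) [NumberField K] (v : HeightOneSpectrum (𝓞 K)),
    ∃ A : ValuationSubring Qb, ∀ x : K, ((x : K) : Qb) ∈ A ↔ v.valuation K x ≤ 1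

section Bridges

variable {p : ℕ} [Fact p.Prime]

/-- An automorphism fixing a primitive `p`-th root of unity has trivial mod-`p` cyclotomic
character. -/
theorem cycloChar_eq_one_of_fixes (σ : Gq) (ζ : Qb) (hζ : IsPrimitiveRoot ζ p) (h : σ ζ = ζ) :
    ExtCitation.cycloChar p σ = 1 := by
  have hne : NeZero p := ⟨(Fact.out : p.Prime).ne_zero⟩
  have hp1 : 1 < p := (Fact.out : p.Prime).one_lt
  have hspec := modularCyclotomicCharacter.spec (AlgebraicClosure ℚ)
    (ExtCitation.card_rootsOfUnity_eq_self p) (σ : Qb ≃+* Qb)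
    (t := (hζ.toRootsOfUnity : Qbˣ)) (hζ.toRootsOfUnity.2)
  have hcoe : ((hζ.toRootsOfUnity : Qbˣ) : Qb) = ζ := rfl
  rw [hcoe] at hspec
  have hσ : (σ : Qb ≃+* Qb) ζ = ζ := h
  rw [hσ] at hspec
  have hval : ((ExtCitation.cycloChar p σ : (ZMod p)ˣ) : ZMod p).val = 1 := by
    refine hζ.pow_inj (ZMod.val_lt _) hp1 ?_
    rw [pow_one]
    exact hspec.symm
  have hval1 : ((ExtCitation.cycloChar p σ : (ZMod p)ˣ) : ZMod p) = 1 := by
    have h1 : ((1 : ZMod p)).val = 1 := by
      have : Fact (1 < p) := ⟨hp1⟩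
      exact ZMod.val_one p
    exact ZMod.val_injective p (hval.trans h1.symm)
  exact Units.ext hval1

variable {V : Type} [AddCommGroup V] [Module (ZMod p) V] [DistribMulAction Gq V]
  [SMulCommClass Gq (ZMod p) V] {C : Submodule (ZMod p) V}

omit [SMulCommClass Gq (ZMod p) V] in
/-- An element of a decomposition group at `p` with trivial cyclotomic character acts trivially
on an admissible extension (by local splitting). -/
theorem smul_eq_of_decomposition (hadm : ExtCitation.IsAdmissibleExtension p V C)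
    (A : ValuationSubring Qb) (hA : A.LiesOverPrime p) (σ : Gq)
    (hσ : σ ∈ A.decompositionSubgroup ℚ) (hχ : ExtCitation.cycloChar p σ = 1) (x : V) :
    σ • x = x := by
  obtain ⟨C', hC', hcompl⟩ := hadm.locally_split A hA
  have hquot : ∀ y : V, σ • y - y ∈ C := by
    intro y
    have h := hadm.cyclo_quot σ y
    rw [← ExtCitation.coe_cycloChar, hχ] at h
    simpa using h
  have hsup : x ∈ C ⊔ C' := by rw [hcompl.sup_eq_top]; trivial
  obtain ⟨c, hc, c', hc', rfl⟩ := Submodule.mem_sup.1 hsup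
  have h1 : σ • c = c := hadm.fixed_sub σ c hc
  have h2 : σ • c' - c' ∈ C ⊓ C' := ⟨hquot c', C'.sub_mem (hC' σ hσ c' hc') hc'⟩
  rw [hcompl.inf_eq_bot, Submodule.mem_bot, sub_eq_zero] at h2
  rw [smul_add, h1, h2]

end Bridges

/-- **Assembly of package W.**  The conclusion of `Wiring.wiring` from the three component
statements. -/
theorem wiring_of {p : ℕ} [Fact p.Prime] (h2 : KummerGenStmt p)
    (h3 : UnramStmt p) (h4 : AtPStmt p) (hp : 3 ≤ p)
    (V : Type) [AddCommGroup V] [Module (ZMod p) V] [DistribMulAction Gq V]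
    [SMulCommClass Gq (ZMod p) V]
    (C : Submodule (ZMod p) V) (hadm : ExtCitation.IsAdmissibleExtensionCts p V C)
    (hns : ¬ ExtCitation.SplitsGlobally C)
    (K : IntermediateField ℚ Qb) [NumberField K] [IsCyclotomicExtension {p} ℚ K] :
    ∃ (ζ α : K), IsPrimitiveRoot ζ p ∧ α ≠ 0 ∧ (¬ ∃ γ : K, α = γ ^ p) ∧
      EigenElt p ζ α ∧ ValDivisible p α ∧ LocalPow p α := by
  obtain ⟨ζ, α, θ, hζ, hα, hθ, hnp, heig, hfixV⟩ := h2 hp V C hadm hns K
  have hζ' : IsPrimitiveRoot ((ζ : K) : Qb) p :=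
    hζ.map_of_injective (f := algebraMap K Qb) (algebraMap K Qb).injective
  have hdec : ∀ A : ValuationSubring Qb, A.LiesOverPrime p →
      ∀ σ ∈ A.decompositionSubgroup ℚ, (∀ x : K, σ (x : Qb) = (x : Qb)) → σ θ = θ := by
    intro A hA σ hσ hK
    exact hfixV σ (smul_eq_of_decomposition hadm.toIsAdmissibleExtension A hA σ hσ
      (cycloChar_eq_one_of_fixes σ _ hζ' (hK ζ)))
  have hine : ∀ ℓ : ℕ, ℓ.Prime → ℓ ≠ p → ∀ A : ValuationSubring Qb, A.LiesOverPrime ℓ →
      ∀ σ ∈ A.inertiaSubgroupIn ℚ, σ θ = θ := fun ℓ hℓ hne A hA σ hσ =>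
    hfixV σ (hadm.unramified_outside ℓ hℓ hne A hA σ hσ)
  refine ⟨ζ, α, hζ, hα, hnp, heig, ?_, ?_⟩
  · intro v
    by_cases hv : ((p : ℕ) : 𝓞 K) ∈ v.asIdeal
    · exact (h4 hp K ζ hζ θ α hα hθ hdec v hv).1
    · exact h3 hp K ζ hζ θ α hα hθ hine v hv
  · intro v hv
    exact (h4 hp K ζ hζ θ α hα hθ hdec v hv).2

end Fermat.Agent.S14.Wiring.Interface
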