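import Mathlib
import Fermat.Prelude.Def_FLTPrelim_Ramification
import Fermat.Agent.Lib.DecompLift
import Fermat.Agent.S14.Wiring.Interface

/-!
# S14, package W, row W4: unramified outside `p` ⇒ valuations divisible by `p`

Main result `unramified_valDivisible_of`: for a number field `K ≤ AlgebraicClosure ℚ`,
`θ ^ p = α ∈ K`, and a prime `v` of `K` not above `p`: if every
inertia element (for every valuation subring of `AlgebraicClosure ℚ` over a prime `ℓ ≠ p`) fixes
`θ`, then `p ∣ ord_v α`, in the form `∃ x ≠ 0, v (α * x ^ p) = 1`.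

The proof is elementary valuation theory on `K(θ')` (`θ'` a modified generator with
`ord_v (θ' ^ p) = -1`): the powers of `θ'` have values in distinct cosets of the value group of
`K`, so an automorphism `θ' ↦ ξ θ'` acts trivially on the residue field.  It consumes the inertia
lifting lemma `Fermat.Agent.Lib.DecompLift.exists_inertia_lift` and, as an explicit hypothesis, the
existence of a valuation subring of `AlgebraicClosure ℚ` inducing `v` on `K` (row W3a).
`unramStmt_of_valRing : Interface.ValRingStmt → Interface.UnramStmt p` is the interface form.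
-/

set_option autoImplicit false

open scoped NumberField IntermediateField
open IsDedekindDomain Polynomial

namespace Fermat.Agent.S14.Wiring.Unramified

section Valuation

variable {F : Type*} [Field F] {Γ₀ : Type*} [LinearOrderedCommGroupWithZero Γ₀]
  (w : Valuation F Γ₀)

/-- If the nonzero terms of a finite sum have pairwise distinct valuations and the sum has
valuation `≤ 1`, then every term has valuation `≤ 1`. -/
theorem term_le_one_of_sum_le_one {ι : Type*} (s : Finset ι) (f : ι → F)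
    (hdist : ∀ i ∈ s, ∀ j ∈ s, i ≠ j → f i ≠ 0 → w (f i) ≠ w (f j))
    (hsum : w (∑ i ∈ s, f i) ≤ 1) : ∀ i ∈ s, w (f i) ≤ 1 := by
  classical
  intro i hi
  by_contra hcon
  push Not at hcon
  obtain ⟨k, hk, hmax⟩ := s.exists_max_image (fun j => w (f j)) ⟨i, hi⟩
  have hT : 1 < w (f k) := lt_of_lt_of_le hcon (hmax i hi)
  have hk0 : f k ≠ 0 := by
    intro h
    rw [h, map_zero] at hT
    exact absurd hT (not_lt.mpr zero_le_one)
  have hrest : w (∑ j ∈ s.erase k, f j) < w (f k) := by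
    refine w.map_sum_lt (ne_of_gt (lt_trans zero_lt_one hT)) fun j hj => ?_
    rw [Finset.mem_erase] at hj
    exact lt_of_le_of_ne (hmax j hj.2) (fun h => hdist k hk j hj.2 (Ne.symm hj.1) hk0 h.symm)
  have hsplit : ∑ j ∈ s, f j = f k + ∑ j ∈ s.erase k, f j := (Finset.add_sum_erase s f hk).symm
  rw [hsplit, w.map_add_eq_of_lt_left hrest] at hsum
  exact absurd hT (not_lt.mpr hsum)

end Valuation

section Valuation

variable {F : Type*} [Field F] {Γ₀ : Type*} [LinearOrderedCommGroupWithZero Γ₀]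
  (w : Valuation F Γ₀)

/-- Valuations of the terms of a "Kummer expansion" `∑ c i * θ ^ i`: if `w θ ^ p = ϖ ≠ 1` and all
coefficients have valuation in `ϖ ^ ℤ`, then a sum of valuation `≤ 1` has all terms of valuation
`≤ 1`, and those with `0 < i < p` have valuation `< 1`. -/
theorem kummer_terms (p : ℕ) (θ : F) (ϖ : Γ₀) (hϖ0 : ϖ ≠ 0) (hϖ1 : ϖ ≠ 1)
    (hθ : w θ ^ p = ϖ) (c : ℕ → F) (hc : ∀ i, c i ≠ 0 → ∃ n : ℤ, w (c i) = ϖ ^ n)
    (hsum : w (∑ i ∈ Finset.range p, c i * θ ^ i) ≤ 1) :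
    ∀ i, 0 < i → i < p → w (c i * θ ^ i) < 1 := by
  set t := w θ with ht
  have ht0 : t ≠ 0 := by
    intro h
    rw [h] at hθ
    rcases Nat.eq_zero_or_pos p with hp | hp
    · rw [hp, pow_zero] at hθ; exact hϖ1 hθ.symm
    · rw [zero_pow hp.ne'] at hθ; exact hϖ0 hθ.symm
  have ht1 : t ≠ 1 := by
    intro h
    rw [h, one_pow] at hθ
    exact hϖ1 hθ.symm
  have htpos : 0 < t := zero_lt_iff.mpr ht0
  have hθ0 : θ ≠ 0 := by
    intro h
    rw [ht, h, map_zero] at ht0
    exact ht0 rfl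
  have hinj := zpow_right_injective₀ htpos ht1
  -- valuation of a nonzero term
  have hterm : ∀ i, c i ≠ 0 → ∃ n : ℤ, w (c i * θ ^ i) = t ^ ((p : ℤ) * n + i) := by
    intro i hi
    obtain ⟨n, hn⟩ := hc i hi
    refine ⟨n, ?_⟩
    rw [map_mul, map_pow, hn, ← hθ, zpow_add₀ ht0, zpow_mul, zpow_natCast, zpow_natCast]
  have hdist : ∀ i ∈ Finset.range p, ∀ j ∈ Finset.range p, i ≠ j → c i * θ ^ i ≠ 0 →
      w (c i * θ ^ i) ≠ w (c j * θ ^ j) := by
    intro i hi j hj hij hne
    have hci : c i ≠ 0 := left_ne_zero_of_mul hne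
    obtain ⟨n, hn⟩ := hterm i hci
    by_cases hcj : c j = 0
    · rw [hcj, zero_mul, map_zero, hn]
      exact zpow_ne_zero _ ht0
    · obtain ⟨n', hn'⟩ := hterm j hcj
      rw [hn, hn']
      intro h
      have h2 := hinj h
      rw [Finset.mem_range] at hi hj
      have h3 : ((i : ℤ)) % (p : ℤ) = (j : ℤ) % (p : ℤ) := by
        have e1 : ((p : ℤ) * n + i) % (p : ℤ) = (i : ℤ) % (p : ℤ) := by
          rw [Int.add_emod, Int.mul_emod_right, zero_add, Int.emod_emod_of_dvd _ dvd_rfl]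
        have e2 : ((p : ℤ) * n' + j) % (p : ℤ) = (j : ℤ) % (p : ℤ) := by
          rw [Int.add_emod, Int.mul_emod_right, zero_add, Int.emod_emod_of_dvd _ dvd_rfl]
        rw [← e1, ← e2]
        exact congrArg (· % (p : ℤ)) h2
      rw [Int.emod_eq_of_lt (by positivity) (by exact_mod_cast hi),
        Int.emod_eq_of_lt (by positivity) (by exact_mod_cast hj)] at h3
      exact hij (by exact_mod_cast h3)
  have hle := term_le_one_of_sum_le_one w (Finset.range p) (fun i => c i * θ ^ i) hdist hsum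
  intro i hi0 hip
  refine lt_of_le_of_ne (hle i (Finset.mem_range.mpr hip)) ?_
  by_cases hci : c i = 0
  · rw [hci, zero_mul, map_zero]; exact zero_ne_one
  · obtain ⟨n, hn⟩ := hterm i hci
    rw [hn]
    intro h
    have h2 : (p : ℤ) * n + i = 0 := hinj (by simpa using h)
    have h3 : (p : ℤ) ∣ (i : ℤ) := by
      have : (i : ℤ) = (p : ℤ) * (-n) := by linarith
      exact ⟨-n, this⟩
    have h4 : p ∣ i := by exact_mod_cast h3
    exact absurd (Nat.le_of_dvd hi0 h4) (not_le.mpr hip)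

end Valuation

section Valuation

variable {F : Type*} [Field F] {Γ₀ : Type*} [LinearOrderedCommGroupWithZero Γ₀]
  (w : Valuation F Γ₀)

/-- A ring endomorphism fixing the coefficients and multiplying `θ` by an element `ξ` of
valuation `≤ 1` moves an integral Kummer expansion by an element of valuation `< 1`. -/
theorem kummer_map_sub_lt (p : ℕ) (θ : F) (ϖ : Γ₀) (hϖ0 : ϖ ≠ 0) (hϖ1 : ϖ ≠ 1)
    (hθ : w θ ^ p = ϖ) (c : ℕ → F) (hc : ∀ i, c i ≠ 0 → ∃ n : ℤ, w (c i) = ϖ ^ n)
    (hsum : w (∑ i ∈ Finset.range p, c i * θ ^ i) ≤ 1)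
    (τ : F →+* F) (hτc : ∀ i, τ (c i) = c i) (ξ : F) (hξ : w ξ ≤ 1) (hτθ : τ θ = ξ * θ) :
    w (τ (∑ i ∈ Finset.range p, c i * θ ^ i) - ∑ i ∈ Finset.range p, c i * θ ^ i) < 1 := by
  have hterms := kummer_terms w p θ ϖ hϖ0 hϖ1 hθ c hc hsum
  rw [map_sum, ← Finset.sum_sub_distrib]
  refine w.map_sum_lt one_ne_zero fun i hi => ?_
  rw [Finset.mem_range] at hi
  have e : τ (c i * θ ^ i) - c i * θ ^ i = (ξ ^ i - 1) * (c i * θ ^ i) := by
    rw [map_mul, map_pow, hτc, hτθ, mul_pow]; ring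
  rw [e, map_mul]
  rcases Nat.eq_zero_or_pos i with h0 | h0
  · subst h0
    simp
  · have h1 : w (ξ ^ i - 1) ≤ 1 := by
      refine w.map_sub_le ?_ (by rw [map_one])
      rw [map_pow]; exact pow_le_one' hξ _
    calc w (ξ ^ i - 1) * w (c i * θ ^ i) ≤ 1 * w (c i * θ ^ i) := by gcongr
      _ < 1 := by rw [one_mul]; exact hterms i h0 hi

end Valuation

local notation "Qb" => AlgebraicClosure ℚ
local notation "Gq" => (AlgebraicClosure ℚ ≃ₐ[ℚ] AlgebraicClosure ℚ)

section Dict

variable {K : IntermediateField ℚ Qb} [NumberField K] {v : HeightOneSpectrum (𝓞 K)}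
  {A : ValuationSubring Qb}

theorem val_eq_one_of (hdict : ∀ x : K, (x : Qb) ∈ A ↔ v.valuation K x ≤ 1) (x : K)
    (hx : v.valuation K x = 1) : A.valuation (x : Qb) = 1 := by
  have hx0 : x ≠ 0 := by
    rintro rfl
    simp at hx
  have hx0' : (x : Qb) ≠ 0 := by simpa using hx0
  have h1 : A.valuation (x : Qb) ≤ 1 := (A.valuation_le_one_iff _).mpr ((hdict x).mpr hx.le)
  have h2 : A.valuation ((x⁻¹ : K) : Qb) ≤ 1 :=
    (A.valuation_le_one_iff _).mpr ((hdict x⁻¹).mpr (by rw [map_inv₀, hx, inv_one]))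
  have h3 : ((x⁻¹ : K) : Qb) = (x : Qb)⁻¹ := by simp
  rw [h3, map_inv₀] at h2
  have h4 : A.valuation (x : Qb) ≠ 0 := by
    rw [Ne, map_eq_zero]; exact hx0'
  have h5 : 1 ≤ A.valuation (x : Qb) := by
    rwa [inv_le_one₀ (zero_lt_iff.mpr h4)] at h2
  exact le_antisymm h1 h5

theorem val_lt_one_of (hdict : ∀ x : K, (x : Qb) ∈ A ↔ v.valuation K x ≤ 1) (x : K)
    (hx : v.valuation K x < 1) : A.valuation (x : Qb) < 1 := by
  by_cases hx0 : x = 0
  · subst hx0; simp
  have hx0' : (x : Qb) ≠ 0 := by simpa using hx0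
  have h4 : A.valuation (x : Qb) ≠ 0 := by
    rw [Ne, map_eq_zero]; exact hx0'
  have hv4 : v.valuation K x ≠ 0 := by
    rw [Ne, map_eq_zero]; exact hx0
  have h2 : ¬ ((x⁻¹ : K) : Qb) ∈ A := by
    rw [hdict, map_inv₀, not_le]
    exact (one_lt_inv₀ (zero_lt_iff.mpr hv4)).mpr hx
  have h3 : ((x⁻¹ : K) : Qb) = (x : Qb)⁻¹ := by simp
  rw [h3, ← A.valuation_le_one_iff, not_le, map_inv₀] at h2
  exact (one_lt_inv₀ (zero_lt_iff.mpr h4)).mp h2

end Dict


theorem isAlgebraic_Qb : Algebra.IsAlgebraic ℚ Qb := AlgebraicClosure.isAlgebraic ℚ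

theorem isAlgClosure_Qb : IsAlgClosure ℚ Qb := AlgebraicClosure.instIsAlgClosure ℚ

attribute [local instance] isAlgebraic_Qb isAlgClosure_Qb

theorem isGalois_Qb : IsGalois ℚ Qb := inferInstance

theorem mem_of_isIntegral_int {L : Type*} [Field L] (A : ValuationSubring L) {a : L}
    (ha : IsIntegral ℤ a) : a ∈ A := by
  have h : IsIntegral A a := ha.tower_top
  obtain ⟨y, rfl⟩ := IsIntegrallyClosedIn.isIntegral_iff.mp h
  exact y.2

/-- Elements of `K(θ)` with `θ ^ p ∈ K` are `K`-combinations of `1, θ, …, θ ^ (p - 1)`. -/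
theorem exists_kummer_expansion (K : IntermediateField ℚ Qb) (p : ℕ) (hp : p ≠ 0) (θ : Qb) (α : K)
    (hθ : θ ^ p = (α : Qb)) (x : Qb) (hx : x ∈ K⟮θ⟯) :
    ∃ c : ℕ → K, x = ∑ i ∈ Finset.range p, (c i : Qb) * θ ^ i := by
  set g : Polynomial K := X ^ p - C α with hg
  have hgm : g.Monic := monic_X_pow_sub_C α hp
  have hroot : aeval θ g = 0 := by
    simp only [hg, map_sub, map_pow, aeval_X, aeval_C]
    rw [hθ]
    exact sub_self _
  have hint : IsIntegral K θ := ⟨g, hgm, hroot⟩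
  have hx' : x ∈ (K⟮θ⟯).toSubalgebra := hx
  rw [IntermediateField.adjoin_simple_toSubalgebra_of_isAlgebraic hint.isAlgebraic,
    Algebra.adjoin_singleton_eq_range_aeval] at hx'
  obtain ⟨f, rfl⟩ := hx'
  refine ⟨fun i => (f %ₘ g).coeff i, ?_⟩
  have h1 : aeval θ f = aeval θ (f %ₘ g) := (aeval_modByMonic_eq_self_of_root hroot).symm
  have hdeg : (f %ₘ g).natDegree < p := by
    have hg1 : g ≠ 1 := by
      intro h
      have := congrArg natDegree h
      rw [hg, natDegree_X_pow_sub_C, natDegree_one] at this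
      exact hp this
    have := natDegree_modByMonic_lt f hgm hg1
    rwa [hg, natDegree_X_pow_sub_C] at this
  show aeval θ f = _
  rw [h1, aeval_eq_sum_range' hdeg]
  refine Finset.sum_congr rfl fun i _ => ?_
  rw [Algebra.smul_def]
  rfl

/-- **Unramified ⇒ valuation divisible by `p`** (given a valuation subring of `AlgebraicClosure ℚ`
inducing `v`). -/
theorem unramified_valDivisible_of {p : ℕ} [Fact p.Prime]
    (K : IntermediateField ℚ Qb) [NumberField K] (θ : Qb) (α : K) (hα : α ≠ 0) (hθ : θ ^ p = (α : Qb))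
    (hfix : ∀ ℓ : ℕ, ℓ.Prime → ℓ ≠ p → ∀ A : ValuationSubring Qb, A.LiesOverPrime ℓ →
      ∀ σ ∈ A.inertiaSubgroupIn ℚ, σ θ = θ)
    (v : HeightOneSpectrum (𝓞 K)) (hv : ((p : ℕ) : 𝓞 K) ∉ v.asIdeal)
    (hA : ∃ A : ValuationSubring Qb, ∀ x : K, (x : Qb) ∈ A ↔ v.valuation K x ≤ 1) :
    ∃ x : K, x ≠ 0 ∧ v.valuation K (α * x ^ p) = 1 := by
  have hp : p.Prime := Fact.out
  have : NeZero p := ⟨hp.ne_zero⟩
  obtain ⟨A, hdict⟩ := hA
  have hvα : v.valuation K α ≠ 0 := by rw [Ne, map_eq_zero]; exact hα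
  set m : ℤ := WithZero.log (v.valuation K α) with hm
  have hvm : v.valuation K α = WithZero.exp m := (WithZero.exp_log hvα).symm
  obtain ⟨π, hπ⟩ := v.valuation_exists_uniformizer K
  have hπ0 : π ≠ 0 := by
    rintro rfl
    rw [map_zero] at hπ
    exact WithZero.exp_ne_zero hπ.symm
  by_cases hdiv : (p : ℤ) ∣ m
  · obtain ⟨k, hk⟩ := hdiv
    refine ⟨π ^ k, zpow_ne_zero _ hπ0, ?_⟩
    rw [map_mul, map_pow, map_zpow₀, hπ, hvm, hk, ← WithZero.exp_zsmul, ← WithZero.exp_nsmul,
      ← WithZero.exp_add, ← WithZero.exp_zero]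
    congr 1
    simp only [smul_eq_mul, nsmul_eq_mul]
    ring
  · exfalso
    have hcop : IsCoprime (p : ℤ) m :=
      (Nat.prime_iff_prime_int.mp hp).coprime_iff_not_dvd.mpr hdiv
    obtain ⟨a, b, hab⟩ := hcop
    -- the modified Kummer generator
    set α' : K := α ^ b * π ^ (-(a * p)) with hα'
    set θ' : Qb := θ ^ b * (π : Qb) ^ (-a) with hθ'
    have hθα : θ' ^ p = (α' : Qb) := by
      have e1 : ((α' : K) : Qb) = (α : Qb) ^ b * (π : Qb) ^ (-(a * p)) := by
        rw [hα']; push_cast; rfl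
      rw [e1, hθ', mul_pow, ← zpow_natCast (θ ^ b) p, ← zpow_mul, mul_comm b, zpow_mul,
        zpow_natCast, hθ, ← zpow_natCast ((π : Qb) ^ (-a)) p, ← zpow_mul, neg_mul]
    have hvα' : v.valuation K α' = WithZero.exp 1 := by
      rw [hα', map_mul, map_zpow₀, map_zpow₀, hvm, hπ, ← WithZero.exp_zsmul, ← WithZero.exp_zsmul,
        ← WithZero.exp_add]
      congr 1
      simp only [smul_eq_mul]
      linarith
    have hα'0 : α' ≠ 0 := by
      intro h
      rw [h, map_zero] at hvα'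
      exact WithZero.exp_ne_zero hvα'.symm
    have hα'0' : (α' : Qb) ≠ 0 := by simpa using hα'0
    have hθ'0 : θ' ≠ 0 := by
      intro h
      rw [h, zero_pow hp.ne_zero] at hθα
      exact hα'0' hθα.symm
    set ϖ := A.valuation (α' : Qb) with hϖ
    have hϖ0 : ϖ ≠ 0 := by rw [hϖ, Ne, map_eq_zero]; exact hα'0'
    have hϖ1 : ϖ ≠ 1 := by
      intro h
      have h1 : (α' : Qb) ∈ A := (A.valuation_le_one_iff _).mp h.le
      rw [hdict, hvα', ← WithZero.exp_zero, WithZero.exp_le_exp] at h1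
      exact absurd h1 (by norm_num)
    have hwθ : A.valuation θ' ^ p = ϖ := by rw [← map_pow, hθα]
    -- valuations of elements of `K`
    have hcK : ∀ c : K, c ≠ 0 → ∃ n : ℤ, A.valuation (c : Qb) = ϖ ^ n := by
      intro c hc
      have hvc : v.valuation K c ≠ 0 := by rw [Ne, map_eq_zero]; exact hc
      refine ⟨WithZero.log (v.valuation K c), ?_⟩
      set n := WithZero.log (v.valuation K c) with hn
      have h1 : v.valuation K (c * α' ^ (-n)) = 1 := by
        rw [map_mul, map_zpow₀, hvα', ← WithZero.exp_zsmul, ← WithZero.exp_log hvc, ← hn,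
          ← WithZero.exp_add, ← WithZero.exp_zero]
        congr 1
        simp
      have h2 := val_eq_one_of hdict _ h1
      have e1 : ((c * α' ^ (-n) : K) : Qb) = (c : Qb) * (α' : Qb) ^ (-n) := by
        push_cast; rfl
      rw [e1, map_mul, map_zpow₀, ← hϖ, zpow_neg] at h2
      exact eq_of_mul_inv_eq_one h2
    -- `θ'` does not lie in `K`
    have hθK : θ' ∉ K := by
      intro hmem
      have e1 : ((⟨θ', hmem⟩ : K) ^ p : K) = α' := by
        apply Subtype.ext
        push_cast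
        exact hθα
      have hc0 : (⟨θ', hmem⟩ : K) ≠ 0 := by
        intro h
        rw [h, zero_pow hp.ne_zero] at e1
        exact hα'0 e1.symm
      have hvc : v.valuation K (⟨θ', hmem⟩ : K) ≠ 0 := by rw [Ne, map_eq_zero]; exact hc0
      have h1 := congrArg (v.valuation K) e1
      rw [map_pow, hvα', ← WithZero.exp_log hvc, ← WithZero.exp_nsmul] at h1
      have h2 := WithZero.exp_injective h1
      have h3 : (p : ℤ) ∣ 1 := ⟨_, by rw [← h2, nsmul_eq_mul]⟩
      have h4 : p ∣ 1 := by exact_mod_cast h3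
      exact hp.one_lt.ne' (Nat.dvd_one.mp h4)
    have hGal : IsGalois ℚ Qb := isGalois_Qb
    have hfixed := InfiniteGalois.fixedField_fixingSubgroup K
    have hθK' : θ' ∉ IntermediateField.fixedField K.fixingSubgroup := by rw [hfixed]; exact hθK
    rw [IntermediateField.mem_fixedField_iff] at hθK'
    push Not at hθK'
    obtain ⟨τ, hτK, hτθ⟩ := hθK'
    have hτK' : ∀ c : K, τ (c : Qb) = (c : Qb) := fun c =>
      (IntermediateField.mem_fixingSubgroup_iff K τ).mp hτK c c.2
    -- `τ θ' = ξ θ'` with `ξ` a `p`-th root of unity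
    set ξ : Qb := τ θ' / θ' with hξ
    have hτθ' : τ θ' = ξ * θ' := by rw [hξ, div_mul_cancel₀ _ hθ'0]
    have hξp : ξ ^ p = 1 := by
      rw [hξ, div_pow, ← map_pow, hθα, hτK', div_self hα'0']
    have hξle : A.valuation ξ ≤ 1 := by
      by_contra hcon
      push Not at hcon
      have h1 : 1 < A.valuation ξ ^ p := one_lt_pow₀ hcon hp.ne_zero
      rw [← map_pow, hξp, map_one] at h1
      exact lt_irrefl _ h1
    -- the field `M = K(θ')`
    set M : IntermediateField ℚ Qb := (K⟮θ'⟯).restrictScalars ℚ with hMdef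
    have hKM : ∀ c : K, (c : Qb) ∈ M := fun c => (K⟮θ'⟯).algebraMap_mem c
    have hθM : θ' ∈ M := IntermediateField.mem_adjoin_simple_self K θ'
    have hrep : ∀ x ∈ M, ∃ c : ℕ → K, x = ∑ i ∈ Finset.range p, (c i : Qb) * θ' ^ i :=
      fun x hx => exists_kummer_expansion K p hp.ne_zero θ' α' hθα x hx
    have hτM : ∀ x ∈ M, IsIntegral ℤ x → τ x - x ∈ A.nonunits := by
      intro x hx hxint
      obtain ⟨c, rfl⟩ := hrep x hx
      rw [A.mem_nonunits_iff]
      have hxA : A.valuation (∑ i ∈ Finset.range p, (c i : Qb) * θ' ^ i) ≤ 1 :=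
        (A.valuation_le_one_iff _).mpr (mem_of_isIntegral_int A hxint)
      exact kummer_map_sub_lt A.valuation p θ' ϖ hϖ0 hϖ1 hwθ (fun i => (c i : Qb))
        (fun i hi => hcK (c i) (by simpa using hi)) hxA (τ : Qb →+* Qb) (fun i => hτK' (c i))
        ξ hξle hτθ'
    -- the residue characteristic
    have : NeZero v.asIdeal := ⟨v.ne_bot⟩
    set ℓ := Ideal.absNorm (Ideal.under ℤ v.asIdeal) with hℓdef
    have hℓ : ℓ.Prime := Nat.absNorm_under_prime v.asIdeal
    have hℓv : ((ℓ : ℕ) : 𝓞 K) ∈ v.asIdeal := by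
      have h1 := Ideal.absNorm_mem (Ideal.under ℤ v.asIdeal)
      rw [Ideal.mem_comap] at h1
      simpa using h1
    have hℓp : ℓ ≠ p := by
      intro h
      exact hv (h ▸ hℓv)
    have hAℓ : A.LiesOverPrime ℓ := by
      show (ℓ : Qb) ∈ A.nonunits
      rw [A.mem_nonunits_iff]
      have h1 : v.valuation K (((ℓ : ℕ) : 𝓞 K) : K) < 1 := (v.valuation_lt_one_iff_mem _).mpr hℓv
      have h2 := val_lt_one_of hdict _ h1
      simpa using h2
    obtain ⟨σ, hσI, hσM⟩ := Fermat.Agent.Lib.DecompLift.exists_inertia_lift M A hℓ hAℓ τ hτM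
    have h1 : σ θ = θ := hfix ℓ hℓ hℓp A hAℓ σ hσI
    have h2 : σ θ' = τ θ' := hσM θ' hθM
    have h3 : σ (π : Qb) = (π : Qb) := by rw [hσM _ (hKM π)]; exact hτK' π
    have h4 : σ θ' = θ' := by rw [hθ', map_mul, map_zpow₀, map_zpow₀, h1, h3]
    exact hτθ (h2 ▸ h4)

/-- **Row W4 in interface form.** -/
theorem unramStmt_of_valRing (hval : Interface.ValRingStmt) (p : ℕ) [Fact p.Prime] :
    Interface.UnramStmt p := by
  intro _ K _ _ _ _ θ α hα hθ hfix v hv
  exact unramified_valDivisible_of K θ α hα hθ hfix v hv (hval K v)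

end Fermat.Agent.S14.Wiring.Unramified
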