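import Mathlib
import Fermat.Prelude.Def_FLTPrelim_Ramification

set_option autoImplicit false

open scoped NumberField
open IsDedekindDomain

namespace Fermat.Agent.S14.Wiring.ValRingAlt

/-- Chevalley extension: a valuation subring `B` of `K` is the trace on `K` of some valuation
subring of any field extension `L` of `K`. -/
theorem exists_valuationSubring_extension {K L : Type*} [Field K] [Field L] [Algebra K L]
    (B : ValuationSubring K) :
    ∃ A : ValuationSubring L, ∀ x : K, algebraMap K L x ∈ A ↔ x ∈ B := by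
  obtain ⟨A, hle, hloc⟩ :=
    LocalSubring.exists_le_valuationSubring (B.toLocalSubring.map (algebraMap K L))
  have hle' : ∀ x : K, x ∈ B → algebraMap K L x ∈ A := fun x hx =>
    hle (Subring.mem_map.mpr ⟨x, hx, rfl⟩)
  refine ⟨A, fun x => ⟨fun hxA => ?_, hle' x⟩⟩
  by_contra hxB
  have hx0 : x ≠ 0 := fun h => hxB (h ▸ B.zero_mem)
  have hinv : x⁻¹ ∈ B := (B.mem_or_inv_mem x).resolve_left hxB
  -- the element `f x⁻¹` of the image subring becomes a unit in `A`
  let s : (B.toLocalSubring.map (algebraMap K L)).toSubring :=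
    ⟨algebraMap K L x⁻¹, Subring.mem_map.mpr ⟨x⁻¹, hinv, rfl⟩⟩
  have hunitA : IsUnit (Subring.inclusion hle s) := by
    refine IsUnit.of_mul_eq_one (⟨algebraMap K L x, hxA⟩ : A.toSubring) ?_
    apply Subtype.ext
    change algebraMap K L x⁻¹ * algebraMap K L x = 1
    rw [← map_mul, inv_mul_cancel₀ hx0, map_one]
  have hunitS : IsUnit s := hloc.map_nonunit s hunitA
  obtain ⟨⟨t, ht⟩, hst⟩ := isUnit_iff_exists_inv.mp hunitS
  obtain ⟨b, hb, rfl⟩ := Subring.mem_map.mp ht
  have h1 : algebraMap K L (x⁻¹ * b) = 1 := by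
    rw [map_mul]
    exact congrArg Subtype.val hst
  have h2 : x⁻¹ * b = 1 := (algebraMap K L).injective (by rw [h1, map_one])
  have h3 : b = x := by
    have := congrArg (fun y => x * y) h2
    simpa [← mul_assoc, mul_inv_cancel₀ hx0] using this
  exact hxB (h3 ▸ hb)

/-- In the situation of `exists_valuationSubring_extension`, non-units correspond. -/
theorem mem_nonunits_iff_of_mem_iff {K L : Type*} [Field K] [Field L] [Algebra K L]
    (B : ValuationSubring K) (A : ValuationSubring L)
    (h : ∀ x : K, algebraMap K L x ∈ A ↔ x ∈ B) (x : K) :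
    algebraMap K L x ∈ A.nonunits ↔ x ∈ B.nonunits := by
  rw [ValuationSubring.mem_nonunits_iff_or, ValuationSubring.mem_nonunits_iff_or, ← map_inv₀, h,
    map_eq_zero]

variable {Qb : Type*} [Field Qb] [Algebra ℚ Qb]

/-- W3a (dictionary, existence direction). Every finite prime `v` of a number field
`K ⊆ Qb` is the trace of a valuation subring `A` of `Qb`: for `x ∈ K`,
`x ∈ A ↔ v(x) ≤ 1` and `x ∈ A.nonunits ↔ v(x) < 1`. -/
theorem exists_valuationSubring_of_prime (K : IntermediateField ℚ Qb) [NumberField K]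
    (v : HeightOneSpectrum (𝓞 K)) :
    ∃ A : ValuationSubring Qb, (∀ x : K, (x : Qb) ∈ A ↔ v.valuation K x ≤ 1) ∧
      (∀ x : K, (x : Qb) ∈ A.nonunits ↔ v.valuation K x < 1) := by
  obtain ⟨A, hA⟩ := exists_valuationSubring_extension (L := Qb) (v.valuation K).valuationSubring
  refine ⟨A, fun x => ?_, fun x => ?_⟩
  · exact (hA x).trans (Valuation.mem_valuationSubring_iff _ _)
  · have := mem_nonunits_iff_of_mem_iff _ A hA x
    refine this.trans ?_
    rw [ValuationSubring.mem_nonunits_iff_or]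
    by_cases hx : x = 0
    · simp [hx]
    · rw [Valuation.mem_valuationSubring_iff, map_inv₀]
      simp only [hx, false_or, not_le]
      have h0 : v.valuation K x ≠ 0 := (Valuation.ne_zero_iff _).mpr hx
      rw [one_lt_inv₀ (zero_lt_iff.mpr h0)]

/-- W3a, simple form consumed by W4/W5. -/
theorem exists_valuationSubring_mem_iff (K : IntermediateField ℚ Qb) [NumberField K]
    (v : HeightOneSpectrum (𝓞 K)) :
    ∃ A : ValuationSubring Qb, ∀ x : K, (x : Qb) ∈ A ↔ v.valuation K x ≤ 1 := by
  obtain ⟨A, hA, -⟩ := exists_valuationSubring_of_prime K v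
  exact ⟨A, hA⟩

/-- W3a with the rational prime: if the rational prime `ℓ` lies in `v`, the valuation subring
lies over `ℓ` in the sense of the Prelude. -/
theorem exists_valuationSubring_liesOverPrime (K : IntermediateField ℚ Qb) [NumberField K]
    (v : HeightOneSpectrum (𝓞 K)) (ℓ : ℕ) (hℓ : ((ℓ : ℕ) : 𝓞 K) ∈ v.asIdeal) :
    ∃ A : ValuationSubring Qb, A.LiesOverPrime ℓ ∧
      (∀ x : K, (x : Qb) ∈ A ↔ v.valuation K x ≤ 1) ∧
      (∀ x : K, (x : Qb) ∈ A.nonunits ↔ v.valuation K x < 1) := by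
  obtain ⟨A, hA, hA'⟩ := exists_valuationSubring_of_prime K v
  refine ⟨A, ?_, hA, hA'⟩
  have h1 : v.valuation K ((ℓ : ℕ) : K) < 1 := by
    have := (v.valuation_lt_one_iff_mem (K := K) ((ℓ : ℕ) : 𝓞 K)).mpr hℓ
    simpa using this
  have h2 := (hA' ((ℓ : ℕ) : K)).mpr h1
  change ((ℓ : ℕ) : Qb) ∈ A.nonunits
  simpa using h2

end Fermat.Agent.S14.Wiring.ValRingAlt
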