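import Fermat.Agent.Lib.InertiaBridge

/-!
# S14, package W, row W3b: lifting lemmas (dec) / (ine)

`Qb = AlgebraicClosure ℚ`, `Gq = Gal(Qb/ℚ)`, `A` a valuation subring of `Qb` over a prime number
`q`, `L` a normal intermediate field of `Qb/ℚ` (finite or not).

* `exists_inertia_lift` (ine): if `g : Gq` moves every algebraic integer of `L` by a non-unit
  of `A`, then some `σ` in the inertia subgroup of `A` agrees with `g` on `L`.
* `exists_decomposition_lift` (dec): if `g : Gq` preserves "being a non-unit of `A`" on the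
  algebraic integers of `L` (i.e. `g` stabilises the prime `m_A ∩ 𝓞 L`), then some `σ` in the
  decomposition subgroup of `A` agrees with `g` on `L`.
* `exists_decomposition_lift_of_imp`: same with only one implication as hypothesis.
* primed versions: the same for `τ : L ≃ₐ[ℚ] L` instead of `g : Gq`.
* `mem_decompositionSubgroup_of_integral`, `mem_nonunits_iff_of_mem_decomposition`: packing /
  unpacking of membership in the decomposition subgroup.
-/

set_option autoImplicit false

namespace Fermat.Agent.S14.Wiring.Lifting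

open scoped Pointwise

section Packing

variable {L : Type*} [Field L] {K : Type*} [Field K] [Algebra K L]

theorem mem_of_integral (A : ValuationSubring L) {a : L} (ha : IsIntegral ℤ a) : a ∈ A := by
  have h : IsIntegral A a := ha.tower_top
  obtain ⟨y, rfl⟩ := IsIntegrallyClosedIn.isIntegral_iff.mp h
  exact y.2

/-- A ring endomorphism which maps integral units of `A` to units of `A` maps `A` into `A`. -/
theorem map_mem_of_integral [CharZero L] (A : ValuationSubring L) (ℓ : ℕ) (hℓ : ℓ.Prime)
    (hA : (ℓ : L) ∈ A.nonunits) (halg : ∀ x : L, IsAlgebraic ℤ x) (σ : L →+* L)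
    (hσ : ∀ x : L, IsIntegral ℤ x → σ x ∈ A.nonunits → x ∈ A.nonunits) (u : L) (hu : u ∈ A) :
    σ u ∈ A := by
  obtain ⟨s, hs, hus, hvs⟩ := Lib.ValFrac.exists_integral_fraction A ℓ hℓ hA u hu (halg u)
  have hσs : IsIntegral ℤ (σ s) := map_isIntegral_int σ hs
  have hσus : IsIntegral ℤ (σ (u * s)) := map_isIntegral_int σ hus
  have h1 : σ s ∈ A := mem_of_integral A hσs
  have h2 : σ (u * s) ∈ A := mem_of_integral A hσus
  have h3 : A.valuation (σ s) = 1 := by
    refine le_antisymm ((A.valuation_le_one_iff _).mpr h1) ?_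
    by_contra hlt
    have h4 : σ s ∈ A.nonunits := A.mem_nonunits_iff.mpr (not_le.mp hlt)
    have h5 := A.mem_nonunits_iff.mp (hσ s hs h4)
    rw [hvs] at h5
    exact lt_irrefl _ h5
  have h6 : A.valuation (σ u) ≤ 1 := by
    have h7 : A.valuation (σ (u * s)) ≤ 1 := (A.valuation_le_one_iff _).mpr h2
    rwa [map_mul, map_mul, h3, mul_one] at h7
  exact (A.valuation_le_one_iff _).mp h6

/-- **Packing lemma for the decomposition subgroup.** In an algebraic extension `L` of `ℚ`, an
automorphism which preserves the set of algebraic integers that are non-units of the valuation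
subring `A` (lying over the prime number `ℓ`) lies in the decomposition subgroup of `A`. -/
theorem mem_decompositionSubgroup_of_integral [CharZero L] (A : ValuationSubring L) (ℓ : ℕ)
    (hℓ : ℓ.Prime) (hA : (ℓ : L) ∈ A.nonunits) (halg : ∀ x : L, IsAlgebraic ℤ x)
    (σ : L ≃ₐ[K] L) (hσ : ∀ x : L, IsIntegral ℤ x → (σ x ∈ A.nonunits ↔ x ∈ A.nonunits)) :
    σ ∈ A.decompositionSubgroup K := by
  have hmap : ∀ u ∈ A, σ u ∈ A :=
    map_mem_of_integral A ℓ hℓ hA halg (σ : L →+* L) (fun x hx h => (hσ x hx).mp h)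
  have hmap' : ∀ u ∈ A, σ.symm u ∈ A :=
    map_mem_of_integral A ℓ hℓ hA halg (σ.symm : L →+* L) (fun x hx h => by
      have hx' : IsIntegral ℤ (σ.symm x) := map_isIntegral_int (σ.symm : L →+* L) hx
      have := (hσ (σ.symm x) hx').mpr h
      rwa [AlgEquiv.apply_symm_apply] at this)
  rw [MulAction.mem_stabilizer_iff]
  ext x
  rw [ValuationSubring.mem_pointwise_smul_iff_inv_smul_mem]
  constructor
  · intro h
    have h1 := hmap _ h
    have h2 : σ (σ⁻¹ • x) = x := by
      change σ (σ⁻¹ x) = x
      exact AlgEquiv.apply_symm_apply σ x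
    rwa [h2] at h1
  · intro h
    exact hmap' x h

/-- Unpacking: elements of the decomposition subgroup preserve membership in `A`. -/
theorem map_mem_iff_of_mem_decomposition (A : ValuationSubring L) (σ : L ≃ₐ[K] L)
    (hσ : σ ∈ A.decompositionSubgroup K) (x : L) : σ x ∈ A ↔ x ∈ A := by
  have h2 : σ • A = A := hσ
  constructor
  · intro h
    have h1 : σ x ∈ σ • A := by rw [h2]; exact h
    rw [ValuationSubring.mem_pointwise_smul_iff_inv_smul_mem] at h1
    have h3 : σ⁻¹ • σ x = x := by
      change σ⁻¹ (σ x) = x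
      exact AlgEquiv.symm_apply_apply σ x
    rwa [h3] at h1
  · intro h
    have h1 : σ • x ∈ σ • A := ValuationSubring.smul_mem_pointwise_smul _ x A h
    rw [h2] at h1
    exact h1

/-- Unpacking: elements of the decomposition subgroup preserve the non-units of `A`. -/
theorem map_mem_nonunits_iff_of_mem_decomposition (A : ValuationSubring L) (σ : L ≃ₐ[K] L)
    (hσ : σ ∈ A.decompositionSubgroup K) (x : L) : σ x ∈ A.nonunits ↔ x ∈ A.nonunits := by
  rw [A.mem_nonunits_iff_or, A.mem_nonunits_iff_or]
  have h2 := map_mem_iff_of_mem_decomposition A σ hσ x⁻¹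
  rw [map_inv₀] at h2
  have h3 : σ x = 0 ↔ x = 0 := map_eq_zero_iff σ σ.injective
  rw [h2, h3]

end Packing

section Lifting

local notation "Qb" => AlgebraicClosure ℚ
local notation "Gq" => (AlgebraicClosure ℚ ≃ₐ[ℚ] AlgebraicClosure ℚ)
local notation "Bq" => integralClosure ℤ (AlgebraicClosure ℚ)

open Fermat.Agent.Lib.FrobProfinite

attribute [local instance] isAlgebraic_Qb isAlgClosure_Qb galAction smulCommClass_galAction
  discTop discTop_discrete continuousSMul_galAction isInvariant_galAction

/-- Abstract lifting step on the ring of all algebraic integers: if `σ` preserves membership in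
the prime `Q` on the invariants of a closed normal subgroup `N`, then some element of the coset
`N σ` stabilises `Q`. -/
theorem exists_mul_smul_eq (N : Subgroup Gq) [N.Normal] (hN : IsClosed (N : Set Gq))
    (Q : Ideal Bq) [Q.IsPrime] (σ : Gq)
    (hσ : ∀ x : Bq, (∀ n ∈ N, n • x = x) → (σ • x ∈ Q ↔ x ∈ Q)) :
    ∃ n ∈ N, (n * σ) • Q = Q := by
  have hcomp : CompactSpace N := isCompact_iff_compactSpace.mp hN.isCompact
  let A' := FixedPoints.subalgebra ℤ Bq N
  have hcomm : SMulCommClass N A' Bq := ⟨fun n a b => by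
    change n • ((a : Bq) * b) = (a : Bq) * n • b
    rw [smul_mul', a.2 n]⟩
  have hinv : Algebra.IsInvariant A' Bq N := ⟨fun b hb => ⟨⟨b, hb⟩, rfl⟩⟩
  have hfix : ∀ (τ : Gq) (x : Bq), (∀ n ∈ N, n • x = x) → ∀ n ∈ N, n • (τ • x) = τ • x := by
    intro τ x hx n hn
    have h1 : (τ⁻¹ * n * τ) • x = x := hx _ (by
      have := ‹N.Normal›.conj_mem n hn τ⁻¹
      simpa using this)
    calc n • (τ • x) = τ • ((τ⁻¹ * n * τ) • x) := by
          simp only [← mul_smul]; congr 1; group
      _ = τ • x := by rw [h1]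
  have hPQ : (σ • Q).under A' = Q.under A' := by
    ext x
    simp only [Ideal.mem_comap]
    have hx : ∀ n ∈ N, n • (x : Bq) = x := fun n hn => x.2 ⟨n, hn⟩
    change (x : Bq) ∈ σ • Q ↔ (x : Bq) ∈ Q
    rw [Ideal.mem_pointwise_smul_iff_inv_smul_mem]
    have h1 := hσ (σ⁻¹ • (x : Bq)) (hfix σ⁻¹ x hx)
    rw [smul_inv_smul] at h1
    exact h1.symm
  obtain ⟨g, hg⟩ := Algebra.IsInvariant.exists_smul_of_under_eq_of_profinite (A := A') (G := N)
    (σ • Q) Q hPQ
  exact ⟨g, g.2, by rw [mul_smul]; exact hg.symm⟩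

/-- **(ine) Lifting of inertia.** Let `L` be a normal intermediate field of `AlgebraicClosure ℚ / ℚ`
and `A` a valuation subring of `AlgebraicClosure ℚ` over the prime number `q`. If `g` moves every
algebraic integer of `L` by a non-unit of `A`, then some element of the inertia subgroup of `A`
agrees with `g` on `L`. -/
theorem exists_inertia_lift (L : IntermediateField ℚ Qb) [Normal ℚ L] (A : ValuationSubring Qb)
    (q : ℕ) (hq : q.Prime) (hA : A.LiesOverPrime q) (g : Gq)
    (hg : ∀ x : Qb, x ∈ L → IsIntegral ℤ x → g x - x ∈ A.nonunits) :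
    ∃ σ : Gq, σ ∈ A.inertiaSubgroupIn ℚ ∧ ∀ x ∈ L, σ x = g x :=
  Lib.InertiaBridge.exists_lift_inertia L A q hq hA g hg

/-- **(dec) Lifting of decomposition.** Let `L` be a normal intermediate field of
`AlgebraicClosure ℚ / ℚ` and `A` a valuation subring of `AlgebraicClosure ℚ` over the prime number
`q`. If `g` preserves the set of algebraic integers of `L` which are non-units of `A` (i.e. `g`
stabilises the prime of `L` below `A`), then some element of the decomposition subgroup of `A`
agrees with `g` on `L`. -/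
theorem exists_decomposition_lift (L : IntermediateField ℚ Qb) [Normal ℚ L]
    (A : ValuationSubring Qb) (q : ℕ) (hq : q.Prime) (hA : A.LiesOverPrime q) (g : Gq)
    (hg : ∀ x : Qb, x ∈ L → IsIntegral ℤ x → (g x ∈ A.nonunits ↔ x ∈ A.nonunits)) :
    ∃ σ : Gq, σ ∈ A.decompositionSubgroup ℚ ∧ ∀ x ∈ L, σ x = g x := by
  have hgal : IsGalois ℚ L := ⟨⟩
  have hnormal : L.fixingSubgroup.Normal := (InfiniteGalois.normal_iff_isGalois L).mpr hgal
  have hclosed : IsClosed (L.fixingSubgroup : Set Gq) := InfiniteGalois.fixingSubgroup_isClosed L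
  let ι : Bq →+* A :=
    ((algebraMap Bq Qb)).codRestrict A.toSubring
      (fun x => mem_valuationSubring_of_isIntegral A x.2)
  let Q : Ideal Bq := (IsLocalRing.maximalIdeal A).comap ι
  have hQprime : Q.IsPrime := Ideal.comap_isPrime ι _
  have hQmem : ∀ b : Bq, b ∈ Q ↔ (b : Qb) ∈ A.nonunits := by
    intro b
    change ι b ∈ IsLocalRing.maximalIdeal A ↔ _
    rw [← ValuationSubring.coe_mem_nonunits_iff]
    rfl
  have hfixL : ∀ x : Bq, (∀ n ∈ L.fixingSubgroup, n • x = x) → (x : Qb) ∈ L := by
    intro x hx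
    rw [← InfiniteGalois.fixedField_fixingSubgroup L, IntermediateField.mem_fixedField_iff]
    intro n hn
    exact congrArg Subtype.val (hx n hn)
  obtain ⟨n, hn, hnQ⟩ := exists_mul_smul_eq L.fixingSubgroup hclosed Q g (by
    intro x hx
    rw [hQmem, hQmem]
    exact hg (x : Qb) (hfixL x hx) x.2)
  refine ⟨n * g, ?_, fun x hx => ?_⟩
  · refine mem_decompositionSubgroup_of_integral A q hq hA (fun x => ?_) (n * g) (fun x hx => ?_)
    · exact (IsFractionRing.isAlgebraic_iff ℤ ℚ Qb).mpr (Algebra.IsAlgebraic.isAlgebraic x)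
    · have h1 : ((n * g) • (⟨x, hx⟩ : Bq)) ∈ Q ↔ (⟨x, hx⟩ : Bq) ∈ Q := by
        constructor
        · intro h
          have h2 : (n * g) • (⟨x, hx⟩ : Bq) ∈ (n * g) • Q := by rw [hnQ]; exact h
          rw [Ideal.mem_pointwise_smul_iff_inv_smul_mem, inv_smul_smul] at h2
          exact h2
        · intro h
          have h2 : (n * g) • (⟨x, hx⟩ : Bq) ∈ (n * g) • Q :=
            Ideal.smul_mem_pointwise_smul _ _ _ h
          rwa [hnQ] at h2
      rw [hQmem, hQmem] at h1
      exact h1
  · have h1 : g x ∈ L := by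
      have h := AlgEquiv.restrictNormal_commutes g L ⟨x, hx⟩
      have h2 : g x = ((g.restrictNormal L ⟨x, hx⟩ : L) : Qb) := h.symm
      rw [h2]
      exact (g.restrictNormal L ⟨x, hx⟩).2
    change n (g x) = g x
    exact (IntermediateField.mem_fixingSubgroup_iff L n).mp hn _ h1

end Lifting

end Fermat.Agent.S14.Wiring.Lifting
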