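import Mathlib

set_option autoImplicit false

/-!
# W5 core (number fields only)

`K ⊆ L` a Galois extension of number fields, `v` a prime of `𝓞 K`, `w` a prime of `𝓞 L` above `v`
with trivial decomposition group. Then `e = f = 1`, `𝓞 K / v^n → 𝓞 L / w^n` is onto, and if
`θ ^ p = α ∈ K` with `θ ∈ L`, then `α` is a `p`-th power times an element `≡ 1 mod v^n`.
-/

open scoped NumberField Pointwise
open IsDedekindDomain

namespace Fermat.Agent.S14.Wiring.SplitCore

variable {K L : Type*} [Field K] [NumberField K] [Field L] [NumberField L] [Algebra K L]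
  [IsGalois K L]

/-- Trivial decomposition group implies `e = 1` and `f = 1`. -/
theorem ramificationIdx_inertiaDeg_eq_one (v : HeightOneSpectrum (𝓞 K))
    (w : HeightOneSpectrum (𝓞 L)) [w.asIdeal.LiesOver v.asIdeal]
    (hD : ∀ g : L ≃ₐ[K] L, g • w.asIdeal = w.asIdeal → g = 1) :
    w.asIdeal.ramificationIdx (𝓞 K) = 1 ∧ w.asIdeal.inertiaDeg (𝓞 K) = 1 := by
  have h := Ideal.card_stabilizer_eq (G := L ≃ₐ[K] L) v.asIdeal w.asIdeal
  have h1 : Nat.card (MulAction.stabilizer (L ≃ₐ[K] L) w.asIdeal) = 1 := by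
    rw [Nat.card_eq_one_iff_unique]
    refine ⟨⟨?_⟩, ⟨1⟩⟩
    rintro ⟨a, ha⟩ ⟨b, hb⟩
    have h1 := hD a ha
    have h2 := hD b hb
    subst h1 h2
    rfl
  rw [h1, Ideal.ramificationIdxIn_eq_ramificationIdx v.asIdeal w.asIdeal (L ≃ₐ[K] L),
    Ideal.inertiaDegIn_eq_inertiaDeg v.asIdeal w.asIdeal (L ≃ₐ[K] L)] at h
  exact ⟨Nat.eq_one_of_mul_eq_one_right h.symm, Nat.eq_one_of_mul_eq_one_left h.symm⟩

omit [IsGalois K L] in
/-- `f = 1`: every integer of `L` is congruent mod `w` to an integer of `K`. -/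
theorem exists_sub_mem_of_inertiaDeg_eq_one (v : HeightOneSpectrum (𝓞 K))
    (w : HeightOneSpectrum (𝓞 L)) [w.asIdeal.LiesOver v.asIdeal]
    (hf : w.asIdeal.inertiaDeg (𝓞 K) = 1) (x : 𝓞 L) :
    ∃ y : 𝓞 K, x - algebraMap (𝓞 K) (𝓞 L) y ∈ w.asIdeal := by
  rw [Ideal.inertiaDeg_eq_of_isMaximal v.asIdeal w.asIdeal] at hf
  let _ : Field (𝓞 K ⧸ v.asIdeal) := Ideal.Quotient.field v.asIdeal
  let _ : Field (𝓞 L ⧸ w.asIdeal) := Ideal.Quotient.field w.asIdeal
  have htop := Subalgebra.bot_eq_top_of_finrank_eq_one hf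
  have hx : Ideal.Quotient.mk w.asIdeal x ∈ (⊥ : Subalgebra (𝓞 K ⧸ v.asIdeal) (𝓞 L ⧸ w.asIdeal)) := by
    rw [htop]; exact Algebra.mem_top
  obtain ⟨ybar, hy⟩ := Algebra.mem_bot.mp hx
  obtain ⟨y, rfl⟩ := Ideal.Quotient.mk_surjective ybar
  refine ⟨y, ?_⟩
  rw [Ideal.Quotient.algebraMap_mk_of_liesOver] at hy
  exact Ideal.Quotient.eq.mp hy.symm

omit [IsGalois K L] in
/-- `e = 1`: the valuations of `v` and `w` agree on `K`. -/
theorem valuation_eq_of_ramificationIdx_eq_one (v : HeightOneSpectrum (𝓞 K))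
    (w : HeightOneSpectrum (𝓞 L)) [w.asIdeal.LiesOver v.asIdeal]
    (he : w.asIdeal.ramificationIdx (𝓞 K) = 1) (x : K) :
    w.valuation L (algebraMap K L x) = v.valuation K x := by
  rw [← HeightOneSpectrum.valuation_liesOver L v w x,
    Ideal.ramificationIdx'_eq_ramificationIdx v.asIdeal w.asIdeal v.ne_bot, he, pow_one]

omit [IsGalois K L] in
theorem intValuation_eq_of_ramificationIdx_eq_one (v : HeightOneSpectrum (𝓞 K))
    (w : HeightOneSpectrum (𝓞 L)) [w.asIdeal.LiesOver v.asIdeal]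
    (he : w.asIdeal.ramificationIdx (𝓞 K) = 1) (x : 𝓞 K) :
    w.intValuation (algebraMap (𝓞 K) (𝓞 L) x) = v.intValuation x := by
  rw [← HeightOneSpectrum.intValuation_liesOver v w x,
    Ideal.ramificationIdx'_eq_ramificationIdx v.asIdeal w.asIdeal v.ne_bot, he, pow_one]

omit [IsGalois K L] in
/-- `e = f = 1`: `𝓞 K / v^n → 𝓞 L / w^n` is onto. -/
theorem exists_sub_mem_pow (v : HeightOneSpectrum (𝓞 K))
    (w : HeightOneSpectrum (𝓞 L)) [w.asIdeal.LiesOver v.asIdeal]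
    (he : w.asIdeal.ramificationIdx (𝓞 K) = 1) (hf : w.asIdeal.inertiaDeg (𝓞 K) = 1)
    (n : ℕ) (x : 𝓞 L) :
    ∃ y : 𝓞 K, x - algebraMap (𝓞 K) (𝓞 L) y ∈ w.asIdeal ^ n := by
  induction n with
  | zero => exact ⟨0, by simp⟩
  | succ n ih =>
    obtain ⟨y, hy⟩ := ih
    obtain ⟨π, hπ⟩ := v.intValuation_exists_uniformizer
    have hπw : w.intValuation (algebraMap (𝓞 K) (𝓞 L) (π ^ n)) = WithZero.exp (-(n : ℤ)) := by
      rw [intValuation_eq_of_ramificationIdx_eq_one v w he, map_pow, hπ, ← WithZero.exp_nsmul]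
      simp
    have h1 : algebraMap (𝓞 K) (𝓞 L) (π ^ n) ∈ w.asIdeal ^ n := by
      rw [← HeightOneSpectrum.intValuation_le_pow_iff_mem, hπw]
    have h2 : algebraMap (𝓞 K) (𝓞 L) (π ^ n) ∉ w.asIdeal ^ (n + 1) := by
      rw [← HeightOneSpectrum.intValuation_le_pow_iff_mem, hπw, WithZero.exp_le_exp]
      push_cast
      omega
    obtain ⟨d, e, he', hde⟩ := Ideal.exists_mul_add_mem_pow_succ w.ne_bot _ _ h1 h2 hy
    obtain ⟨d', hd'⟩ := exists_sub_mem_of_inertiaDeg_eq_one v w hf d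
    refine ⟨y + π ^ n * d', ?_⟩
    have key : x - algebraMap (𝓞 K) (𝓞 L) (y + π ^ n * d') =
        algebraMap (𝓞 K) (𝓞 L) (π ^ n) * (d - algebraMap (𝓞 K) (𝓞 L) d') + e := by
      rw [map_add, map_mul]; linear_combination (-1 : 𝓞 L) * hde
    rw [key, pow_succ]
    exact Ideal.add_mem _ (Ideal.mul_mem_mul h1 hd') (by rwa [← pow_succ])

omit [IsGalois K L] in
/-- `e = f = 1`: `K` is `w`-adically dense in `L`. -/
theorem exists_valuation_sub_le (v : HeightOneSpectrum (𝓞 K))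
    (w : HeightOneSpectrum (𝓞 L)) [w.asIdeal.LiesOver v.asIdeal]
    (he : w.asIdeal.ramificationIdx (𝓞 K) = 1) (hf : w.asIdeal.inertiaDeg (𝓞 K) = 1)
    (n : ℕ) (θ : L) :
    ∃ y : K, w.valuation L (θ - algebraMap K L y) ≤ WithZero.exp (-(n : ℤ)) := by
  have halg : IsAlgebraic ℤ θ :=
    (IsFractionRing.isAlgebraic_iff ℤ ℚ L).mpr (Algebra.IsAlgebraic.isAlgebraic θ)
  obtain ⟨d, hd0, hint⟩ := halg.exists_integral_multiple
  set a : 𝓞 L := IsIntegralClosure.mk' (𝓞 L) (d • θ) hint with ha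
  have haL : algebraMap (𝓞 L) L a = d • θ := IsIntegralClosure.algebraMap_mk' (𝓞 L) (d • θ) hint
  have hdK : (d : K) ≠ 0 := Int.cast_ne_zero.mpr hd0
  have hdL : (d : L) ≠ 0 := Int.cast_ne_zero.mpr hd0
  have hwd : w.valuation L (d : L) ≠ 0 := (Valuation.ne_zero_iff _).mpr hdL
  set j : ℕ := (-(WithZero.log (w.valuation L (d : L)))).toNat with hj
  have hjle : WithZero.exp (-(j : ℤ)) ≤ w.valuation L (d : L) := by
    rw [← WithZero.exp_log hwd, WithZero.exp_le_exp]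
    have := Int.self_le_toNat (-(WithZero.log (w.valuation L (d : L))))
    omega
  obtain ⟨y0, hy0⟩ := exists_sub_mem_pow v w he hf (n + j) a
  have hval : w.valuation L (algebraMap (𝓞 L) L (a - algebraMap (𝓞 K) (𝓞 L) y0))
      ≤ WithZero.exp (-((n + j : ℕ) : ℤ)) := by
    rw [HeightOneSpectrum.valuation_of_algebraMap, HeightOneSpectrum.intValuation_le_pow_iff_mem]
    exact hy0
  refine ⟨algebraMap (𝓞 K) K y0 / (d : K), ?_⟩
  have hθ : θ - algebraMap K L (algebraMap (𝓞 K) K y0 / (d : K))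
      = algebraMap (𝓞 L) L (a - algebraMap (𝓞 K) (𝓞 L) y0) / (d : L) := by
    rw [map_sub, haL, map_div₀, ← IsScalarTower.algebraMap_apply (𝓞 K) K L,
      IsScalarTower.algebraMap_apply (𝓞 K) (𝓞 L) L, map_intCast, zsmul_eq_mul]
    field_simp
  rw [hθ, map_div₀, div_le_iff₀ (zero_lt_iff.mpr hwd)]
  refine hval.trans ?_
  have : WithZero.exp (-((n + j : ℕ) : ℤ)) = WithZero.exp (-(n : ℤ)) * WithZero.exp (-(j : ℤ)) := by
    rw [← WithZero.exp_add]; push_cast; ring_nf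
  rw [this]
  exact mul_le_mul_right hjle _

/-- **W5 core.** If the decomposition group of `w | v` in `Gal(L/K)` is trivial and
`θ ^ p = α` with `θ ∈ L`, `α ∈ K`, then `α` is, up to a `p`-th power of `K`, congruent to `1`
modulo `v ^ n`. -/
theorem localPow_core (v : HeightOneSpectrum (𝓞 K))
    (w : HeightOneSpectrum (𝓞 L)) [w.asIdeal.LiesOver v.asIdeal]
    (hD : ∀ g : L ≃ₐ[K] L, g • w.asIdeal = w.asIdeal → g = 1)
    (p n : ℕ) (hp : 0 < p) (hn : 0 < n) (α : K) (hα : α ≠ 0) (θ : L)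
    (hθ : θ ^ p = algebraMap K L α) :
    ∃ x : K, x ≠ 0 ∧ v.valuation K (α * x ^ p) = 1 ∧
      v.valuation K (α * x ^ p - 1) ≤ WithZero.exp (-(n : ℤ)) := by
  obtain ⟨he, hf⟩ := ramificationIdx_inertiaDeg_eq_one v w hD
  obtain ⟨π, hπ⟩ := v.valuation_exists_uniformizer K
  have hπ0 : π ≠ 0 := by
    rintro rfl
    rw [map_zero] at hπ
    exact WithZero.exp_ne_zero hπ.symm
  have hθ0 : θ ≠ 0 := by
    rintro rfl
    rw [zero_pow hp.ne'] at hθ
    exact hα ((map_eq_zero _).mp hθ.symm)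
  have hwθ : w.valuation L θ ≠ 0 := (Valuation.ne_zero_iff _).mpr hθ0
  set m : ℤ := WithZero.log (w.valuation L θ) with hm
  set θ1 : L := θ * algebraMap K L (π ^ m) with hθ1def
  have hπL : w.valuation L (algebraMap K L (π ^ m)) = WithZero.exp (-m) := by
    rw [valuation_eq_of_ramificationIdx_eq_one v w he, map_zpow₀, hπ, ← WithZero.exp_zsmul]
    simp
  have hθ1 : w.valuation L θ1 = 1 := by
    rw [hθ1def, map_mul, hπL, ← WithZero.exp_log hwθ, ← hm, ← WithZero.exp_add]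
    simp
  obtain ⟨y, hy⟩ := exists_valuation_sub_le v w he hf n θ1
  have hlt : WithZero.exp (-(n : ℤ)) < (1 : WithZero (Multiplicative ℤ)) := by
    rw [← WithZero.exp_zero, WithZero.exp_lt_exp]
    have : (0 : ℤ) < n := by exact_mod_cast hn
    omega
  have hy1 : w.valuation L (algebraMap K L y) = 1 := by
    have h := Valuation.map_eq_of_sub_lt (w.valuation L) (x := θ1) (y := algebraMap K L y)
      (by rw [Valuation.map_sub_swap, hθ1]; exact hy.trans_lt hlt)
    rw [h, hθ1]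
  have hyL : algebraMap K L y ≠ 0 := by
    intro h
    rw [h, map_zero] at hy1
    exact zero_ne_one hy1
  have hy0 : y ≠ 0 := fun h => hyL (by rw [h, map_zero])
  have hpow : w.valuation L (θ1 ^ p - algebraMap K L y ^ p) ≤ WithZero.exp (-(n : ℤ)) := by
    rw [← geom_sum₂_mul, map_mul]
    have hsum : w.valuation L (∑ i ∈ Finset.range p, θ1 ^ i * algebraMap K L y ^ (p - 1 - i)) ≤ 1 := by
      refine Valuation.map_sum_le _ fun i _ => ?_
      rw [map_mul, map_pow, map_pow, hθ1, hy1, one_pow, one_pow, one_mul]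
    calc _ ≤ 1 * WithZero.exp (-(n : ℤ)) := mul_le_mul' hsum hy
      _ = _ := one_mul _
  have hkey : algebraMap K L (α * (π ^ m / y) ^ p - 1)
      = (θ1 ^ p - algebraMap K L y ^ p) / algebraMap K L y ^ p := by
    rw [map_sub, map_mul, map_pow, map_div₀, map_one, ← hθ, hθ1def, div_pow, mul_pow]
    have hYp : algebraMap K L y ^ p ≠ 0 := pow_ne_zero _ hyL
    field_simp
  have hfinal : v.valuation K (α * (π ^ m / y) ^ p - 1) ≤ WithZero.exp (-(n : ℤ)) := by
    rw [← valuation_eq_of_ramificationIdx_eq_one v w he, hkey, map_div₀, map_pow, hy1, one_pow,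
      div_one]
    exact hpow
  refine ⟨π ^ m / y, div_ne_zero (zpow_ne_zero _ hπ0) hy0, ?_, hfinal⟩
  have := Valuation.map_one_add_of_lt (v := v.valuation K) (hfinal.trans_lt hlt)
  rwa [add_sub_cancel] at this

end Fermat.Agent.S14.Wiring.SplitCore
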