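import Mathlib
import Fermat.Prelude.Def_ExtCitation_KummerBridge
import Fermat.Prelude.Def_ExtCitation_AdmissibleExtension_v2

set_option autoImplicit false

/-!
# S14, package W, step W1: the cocycle of an admissible extension (pure algebra)

For `V ⊇ C` as in `ExtCitation.IsAdmissibleExtension` we choose a generator `e₁` of `C` and
`v₀ ∉ C`, and write `σ • v₀ = χ(σ) • v₀ + b(σ) • e₁`, `χ` the mod `p` cyclotomic character.
-/

namespace Fermat.Agent.S14.Wiring.Cocycle

open ExtCitation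

/-- The absolute Galois group of `ℚ`. -/
abbrev GQ : Type := AlgebraicClosure ℚ ≃ₐ[ℚ] AlgebraicClosure ℚ

/-- The mod `p` cyclotomic character with values in `ZMod p`. -/
noncomputable def chi (p : ℕ) [Fact p.Prime] (σ : GQ) : ZMod p := (cycloChar p σ : ZMod p)

section chi

variable (p : ℕ) [Fact p.Prime]

lemma chi_mul (σ τ : GQ) : chi p (σ * τ) = chi p σ * chi p τ := by
  simp [chi, map_mul]

lemma chi_one : chi p (1 : GQ) = 1 := by
  simp [chi]

lemma chi_ne_zero (σ : GQ) : chi p σ ≠ 0 := (cycloChar p σ).ne_zero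

lemma chi_inv_mul (σ : GQ) : chi p σ⁻¹ * chi p σ = 1 := by
  rw [← chi_mul, inv_mul_cancel, chi_one]

lemma chi_eq_cycloExp (σ : GQ) : chi p σ = (cycloExp p σ : ZMod p) := coe_cycloChar p σ

lemma chi_conj (σ τ : GQ) : chi p (σ⁻¹ * τ * σ) = chi p τ := by
  rw [chi_mul, chi_mul, mul_comm (chi p σ⁻¹), mul_assoc, chi_inv_mul, mul_one]

end chi

variable {p : ℕ} [Fact p.Prime] {V : Type} [AddCommGroup V] [Module (ZMod p) V]
  [DistribMulAction GQ V] [SMulCommClass GQ (ZMod p) V]

/-- The cocycle data attached to an admissible extension. -/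
structure CocycleData (p : ℕ) [Fact p.Prime] (V : Type) [AddCommGroup V] [Module (ZMod p) V]
    [DistribMulAction GQ V] [SMulCommClass GQ (ZMod p) V] (C : Submodule (ZMod p) V) where
  /-- generator of `C` -/
  e1 : V
  /-- a vector outside `C` -/
  v0 : V
  /-- the cocycle -/
  b : GQ → ZMod p
  e1_mem : e1 ∈ C
  e1_ne : e1 ≠ 0
  v0_notMem : v0 ∉ C
  mem_C : ∀ x ∈ C, ∃ y : ZMod p, x = y • e1
  span : ∀ v : V, ∃ x y : ZMod p, v = x • v0 + y • e1
  indep : ∀ x y : ZMod p, x • v0 + y • e1 = 0 → x = 0 ∧ y = 0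
  smul_e1 : ∀ σ : GQ, σ • e1 = e1
  smul_v0 : ∀ σ : GQ, σ • v0 = chi p σ • v0 + b σ • e1

namespace CocycleData

variable {C : Submodule (ZMod p) V} (D : CocycleData p V C)

include D in
lemma coord_unique {x y x' y' : ZMod p} (h : x • D.v0 + y • D.e1 = x' • D.v0 + y' • D.e1) :
    x = x' ∧ y = y' := by
  have h0 : (x - x') • D.v0 + (y - y') • D.e1 = 0 := by
    rw [sub_smul, sub_smul]
    have := sub_eq_zero.mpr h
    rw [← this]
    abel
  obtain ⟨h1, h2⟩ := D.indep _ _ h0
  exact ⟨sub_eq_zero.mp h1, sub_eq_zero.mp h2⟩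

/-- The action on a general vector. -/
lemma smul_coord (σ : GQ) (x y : ZMod p) :
    σ • (x • D.v0 + y • D.e1) = (x * chi p σ) • D.v0 + (x * D.b σ + y) • D.e1 := by
  rw [smul_add, smul_comm σ x, smul_comm σ y, D.smul_e1, D.smul_v0, smul_add, smul_smul, smul_smul,
    add_smul]
  abel

/-- The cocycle relation. -/
lemma b_mul (σ τ : GQ) : D.b (σ * τ) = chi p τ * D.b σ + D.b τ := by
  have h1 : (σ * τ) • D.v0 = chi p (σ * τ) • D.v0 + D.b (σ * τ) • D.e1 := D.smul_v0 _
  have h2 : (σ * τ) • D.v0 = (chi p τ * chi p σ) • D.v0 + (chi p τ * D.b σ + D.b τ) • D.e1 := by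
    rw [mul_smul, D.smul_v0 τ, D.smul_coord]
  exact (D.coord_unique (h1.symm.trans h2)).2

lemma b_one : D.b 1 = 0 := by
  have h := D.b_mul 1 1
  rw [mul_one, chi_one, one_mul] at h
  exact left_eq_add.mp h

/-- On the kernel of `χ` the cocycle is additive. -/
lemma b_mul_of_chi_eq_one (σ τ : GQ) (hτ : chi p τ = 1) : D.b (σ * τ) = D.b σ + D.b τ := by
  rw [D.b_mul, hτ, one_mul]

lemma b_inv (σ : GQ) : chi p σ * D.b σ⁻¹ + D.b σ = 0 := by
  rw [← D.b_mul, inv_mul_cancel, D.b_one]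

/-- Conjugation formula `b(σ⁻¹ τ σ) = χ(σ) b(τ)` for `τ ∈ ker χ`. -/
lemma b_conj (σ τ : GQ) (hτ : chi p τ = 1) : D.b (σ⁻¹ * τ * σ) = chi p σ * D.b τ := by
  rw [D.b_mul, D.b_mul, hτ, one_mul, mul_add, add_assoc, add_comm (chi p σ * D.b τ), ← add_assoc,
    D.b_inv, zero_add]

/-- `σ` acts trivially on `V` iff `χ(σ) = 1` and `b(σ) = 0`. -/
lemma smul_eq_self_iff (σ : GQ) : (∀ v : V, σ • v = v) ↔ chi p σ = 1 ∧ D.b σ = 0 := by
  constructor
  · intro h
    have h1 := h D.v0
    rw [D.smul_v0] at h1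
    have h2 : chi p σ • D.v0 + D.b σ • D.e1 = (1 : ZMod p) • D.v0 + (0 : ZMod p) • D.e1 := by
      rw [h1, one_smul, zero_smul, add_zero]
    exact D.coord_unique h2
  · rintro ⟨h1, h2⟩ v
    obtain ⟨x, y, rfl⟩ := D.span v
    rw [D.smul_coord, h1, h2, mul_one, mul_zero, zero_add]

/-- `σ` fixes `v₀` iff it acts trivially on `V`. -/
lemma smul_v0_eq_iff (σ : GQ) : σ • D.v0 = D.v0 ↔ chi p σ = 1 ∧ D.b σ = 0 := by
  constructor
  · intro h1
    rw [D.smul_v0] at h1
    have h2 : chi p σ • D.v0 + D.b σ • D.e1 = (1 : ZMod p) • D.v0 + (0 : ZMod p) • D.e1 := by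
      rw [h1, one_smul, zero_smul, add_zero]
    exact D.coord_unique h2
  · rintro ⟨h1, h2⟩
    rw [D.smul_v0, h1, h2, one_smul, zero_smul, add_zero]

/-- Symmetry coming from `b` vanishing on commutators. -/
lemma b_symm_of_vanish (hb : ∀ τ : GQ, chi p τ = 1 → D.b τ = 0) (σ τ : GQ) :
    (chi p τ - 1) * D.b σ = (chi p σ - 1) * D.b τ := by
  -- `σ τ = c (τ σ)` with `c = σ τ (τ σ)⁻¹ ∈ ker χ`
  have hc : chi p (σ * τ * (τ * σ)⁻¹) = 1 := by
    rw [chi_mul, chi_mul, mul_inv_rev, chi_mul]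
    have h1 := chi_inv_mul p σ
    have h2 := chi_inv_mul p τ
    calc chi p σ * chi p τ * (chi p σ⁻¹ * chi p τ⁻¹)
        = (chi p σ⁻¹ * chi p σ) * (chi p τ⁻¹ * chi p τ) := by ring
      _ = 1 := by rw [h1, h2, mul_one]
  have h0 := hb _ hc
  have h1 : D.b (σ * τ) = D.b (τ * σ) := by
    have h := D.b_mul (σ * τ * (τ * σ)⁻¹) (τ * σ)
    rw [inv_mul_cancel_right, h0, mul_zero, zero_add] at h
    exact h
  rw [D.b_mul σ τ, D.b_mul τ σ] at h1
  linear_combination h1

/-- **W1 (i).** If the cocycle vanishes on the kernel of `χ`, the extension splits globally. -/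
theorem splitsGlobally_of_vanish (hb : ∀ τ : GQ, chi p τ = 1 → D.b τ = 0) :
    SplitsGlobally C := by
  -- a vector `w = v₀ + t e₁` with `σ w = χ(σ) w` for all `σ`
  obtain ⟨t, ht⟩ : ∃ t : ZMod p, ∀ σ : GQ, D.b σ = (chi p σ - 1) * t := by
    by_cases h : ∃ σ₀ : GQ, chi p σ₀ ≠ 1
    · obtain ⟨σ₀, hσ₀⟩ := h
      have hne : chi p σ₀ - 1 ≠ 0 := sub_ne_zero.mpr hσ₀
      refine ⟨D.b σ₀ / (chi p σ₀ - 1), fun σ => ?_⟩
      have := D.b_symm_of_vanish hb σ σ₀
      field_simp
      linear_combination this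
    · push Not at h
      exact ⟨0, fun σ => by rw [hb σ (h σ), mul_zero]⟩
  have hw : ∀ σ : GQ, σ • (D.v0 + t • D.e1) = chi p σ • (D.v0 + t • D.e1) := by
    intro σ
    have h1 := D.smul_coord σ 1 t
    rw [one_smul, one_mul, one_mul, ht σ] at h1
    rw [h1, smul_add, smul_smul]
    congr 1
    congr 1
    ring
  refine ⟨Submodule.span (ZMod p) {D.v0 + t • D.e1}, ?_, ?_⟩
  · intro σ x hx
    obtain ⟨a, rfl⟩ := Submodule.mem_span_singleton.mp hx
    rw [smul_comm σ a, hw σ, smul_smul]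
    exact Submodule.mem_span_singleton.mpr ⟨a * chi p σ, rfl⟩
  · rw [isCompl_iff]
    constructor
    · rw [Submodule.disjoint_def]
      intro x hxC hx
      obtain ⟨a, rfl⟩ := Submodule.mem_span_singleton.mp hx
      by_contra hne
      have ha : a ≠ 0 := by
        rintro rfl
        exact hne (zero_smul _ _)
      apply D.v0_notMem
      have h1 : D.v0 + t • D.e1 ∈ C := by
        have := C.smul_mem a⁻¹ hxC
        rwa [smul_smul, inv_mul_cancel₀ ha, one_smul] at this
      have h2 : D.v0 = (D.v0 + t • D.e1) - t • D.e1 := by abel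
      rw [h2]
      exact C.sub_mem h1 (C.smul_mem t D.e1_mem)
    · rw [codisjoint_iff, eq_top_iff]
      rintro v -
      obtain ⟨x, y, rfl⟩ := D.span v
      have h : x • D.v0 + y • D.e1 = (y - x * t) • D.e1 + x • (D.v0 + t • D.e1) := by
        rw [sub_smul, smul_add, smul_smul]
        abel
      rw [h]
      exact Submodule.add_mem_sup (C.smul_mem _ D.e1_mem)
        (Submodule.mem_span_singleton.mpr ⟨x, rfl⟩)

/-- **W1 (ii).** If the extension does not split, some `τ₀ ∈ ker χ` has `b(τ₀) ≠ 0`. -/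
theorem exists_ker_chi_b_ne_zero (hns : ¬ SplitsGlobally C) :
    ∃ τ₀ : GQ, chi p τ₀ = 1 ∧ D.b τ₀ ≠ 0 := by
  by_contra h
  push Not at h
  exact hns (D.splitsGlobally_of_vanish h)

end CocycleData

/-- **W1, existence.** An admissible extension has cocycle data. -/
theorem nonempty_cocycleData {C : Submodule (ZMod p) V} (hadm : IsAdmissibleExtension p V C) :
    Nonempty (CocycleData p V C) := by
  have hp : p.Prime := Fact.out
  have hp2 : 2 ≤ p := hp.two_le
  have : Finite V := Nat.finite_of_card_ne_zero (by rw [hadm.card_total]; positivity)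
  have : Finite C := Nat.finite_of_card_ne_zero (by rw [hadm.card_sub]; exact hp.ne_zero)
  -- a nonzero element of `C`
  obtain ⟨e1, he1C, he1⟩ : ∃ e1 : V, e1 ∈ C ∧ e1 ≠ 0 := by
    have h1 : 1 < Nat.card C := by rw [hadm.card_sub]; exact hp.one_lt
    have : Nontrivial C := Finite.one_lt_card_iff_nontrivial.mp h1
    obtain ⟨x, hx⟩ := exists_ne (0 : C)
    exact ⟨x, x.2, fun h => hx (Subtype.ext h)⟩
  -- `C` consists of the multiples of `e1`
  have hmemC : ∀ x ∈ C, ∃ y : ZMod p, x = y • e1 := by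
    let f : ZMod p → C := fun y => ⟨y • e1, C.smul_mem y he1C⟩
    have hf : Function.Injective f := by
      intro y y' h
      have h' : y • e1 = y' • e1 := congrArg Subtype.val h
      have h0 : (y - y') • e1 = 0 := by rw [sub_smul, h', sub_self]
      rcases smul_eq_zero.mp h0 with h1 | h1
      · exact sub_eq_zero.mp h1
      · exact absurd h1 he1
    have hbij : Function.Bijective f :=
      (Nat.bijective_iff_injective_and_card f).mpr ⟨hf, by rw [hadm.card_sub, Nat.card_zmod]⟩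
    intro x hx
    obtain ⟨y, hy⟩ := hbij.2 ⟨x, hx⟩
    exact ⟨y, (congrArg Subtype.val hy).symm⟩
  -- a vector outside `C`
  obtain ⟨v0, hv0⟩ : ∃ v0 : V, v0 ∉ C := by
    by_contra h
    push Not at h
    have htop : C = ⊤ := eq_top_iff.mpr fun x _ => h x
    have hcard : Nat.card C = Nat.card V := by
      rw [htop]
      exact Nat.card_congr (Equiv.Set.univ V)
    rw [hadm.card_sub, hadm.card_total] at hcard
    have : p ^ 1 = p ^ 2 := by rw [pow_one]; exact hcard
    exact absurd (Nat.pow_right_injective hp2 this) (by norm_num)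
  have hindep : ∀ x y : ZMod p, x • v0 + y • e1 = 0 → x = 0 ∧ y = 0 := by
    intro x y h
    have hx : x = 0 := by
      by_contra hx
      apply hv0
      have h1 : x • v0 = (-y) • e1 := by
        rw [neg_smul]
        exact eq_neg_of_add_eq_zero_left h
      have h2 : v0 = (x⁻¹ * -y) • e1 := by
        rw [mul_smul, ← h1, smul_smul, inv_mul_cancel₀ hx, one_smul]
      rw [h2]
      exact C.smul_mem _ he1C
    refine ⟨hx, ?_⟩
    rw [hx, zero_smul, zero_add] at h
    rcases smul_eq_zero.mp h with h1 | h1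
    · exact h1
    · exact absurd h1 he1
  have hspan : ∀ v : V, ∃ x y : ZMod p, v = x • v0 + y • e1 := by
    let f : ZMod p × ZMod p → V := fun z => z.1 • v0 + z.2 • e1
    have hf : Function.Injective f := by
      rintro ⟨x, y⟩ ⟨x', y'⟩ h
      have h' : x • v0 + y • e1 = x' • v0 + y' • e1 := h
      have h0 : (x - x') • v0 + (y - y') • e1 = 0 := by
        rw [sub_smul, sub_smul]
        have := sub_eq_zero.mpr h'
        rw [← this]
        abel
      obtain ⟨h1, h2⟩ := hindep _ _ h0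
      rw [sub_eq_zero.mp h1, sub_eq_zero.mp h2]
    have hbij : Function.Bijective f :=
      (Nat.bijective_iff_injective_and_card f).mpr
        ⟨hf, by rw [hadm.card_total, Nat.card_prod, Nat.card_zmod, sq]⟩
    intro v
    obtain ⟨⟨x, y⟩, hxy⟩ := hbij.2 v
    exact ⟨x, y, hxy.symm⟩
  have hb : ∀ σ : GQ, ∃ y : ZMod p, σ • v0 = chi p σ • v0 + y • e1 := by
    intro σ
    obtain ⟨y, hy⟩ := hmemC _ (hadm.cyclo_quot σ v0)
    refine ⟨y, ?_⟩
    rw [chi_eq_cycloExp, ← hy]
    abel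
  choose b hb using hb
  exact ⟨{ e1 := e1, v0 := v0, b := b, e1_mem := he1C, e1_ne := he1, v0_notMem := hv0,
           mem_C := hmemC, span := hspan, indep := hindep,
           smul_e1 := fun σ => hadm.fixed_sub σ e1 he1C, smul_v0 := hb }⟩

/-- **W1, packaged.** A non-split admissible extension has cocycle data together with an element
of `ker χ` on which the cocycle does not vanish. -/
theorem exists_cocycleData {C : Submodule (ZMod p) V} (hadm : IsAdmissibleExtension p V C)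
    (hns : ¬ SplitsGlobally C) :
    ∃ (D : CocycleData p V C) (τ₀ : GQ), chi p τ₀ = 1 ∧ D.b τ₀ ≠ 0 := by
  obtain ⟨D⟩ := nonempty_cocycleData hadm
  exact ⟨D, D.exists_ker_chi_b_ne_zero hns⟩

/-! ### Subgroup packaging (for W2) -/

/-- The kernel of the mod `p` cyclotomic character. -/
noncomputable abbrev kerChi (p : ℕ) [Fact p.Prime] : Subgroup GQ := (cycloChar p).ker

lemma mem_kerChi {σ : GQ} : σ ∈ kerChi p ↔ chi p σ = 1 := by
  rw [MonoidHom.mem_ker, chi]
  exact ⟨fun h => by rw [h]; rfl, fun h => Units.ext h⟩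

/-- The kernel of the Galois action on `V`. -/
noncomputable def actKer (V : Type) [AddCommGroup V] [DistribMulAction GQ V] : Subgroup GQ where
  carrier := {σ | ∀ v : V, σ • v = v}
  one_mem' := fun v => one_smul _ v
  mul_mem' := fun {a b} ha hb v => by rw [mul_smul, hb v, ha v]
  inv_mem' := fun {a} ha v => by rw [inv_smul_eq_iff, ha v]

lemma mem_actKer {σ : GQ} : σ ∈ actKer V ↔ ∀ v : V, σ • v = v := Iff.rfl

instance actKer_normal : (actKer V).Normal where
  conj_mem := fun n hn g v => by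
    rw [mul_smul, mul_smul, hn, smul_inv_smul]

omit [SMulCommClass GQ (ZMod p) V] in
lemma isOpen_actKer [SMulCommClass GQ (ZMod p) V] {C : Submodule (ZMod p) V}
    (hadm : IsAdmissibleExtensionCts p V C) :
    IsOpen ((actKer V : Subgroup GQ) : Set GQ) := hadm.open_kernel

namespace CocycleData

variable {C : Submodule (ZMod p) V} (D : CocycleData p V C)

lemma mem_actKer_iff (σ : GQ) : σ ∈ actKer V ↔ chi p σ = 1 ∧ D.b σ = 0 :=
  D.smul_eq_self_iff σ

include D in
lemma actKer_le_kerChi : actKer V ≤ kerChi p := fun σ hσ =>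
  mem_kerChi.mpr ((D.mem_actKer_iff σ).mp hσ).1

/-- The cocycle restricted to `ker χ`, as a group homomorphism. -/
noncomputable def bHom : kerChi p →* Multiplicative (ZMod p) where
  toFun τ := Multiplicative.ofAdd (D.b τ)
  map_one' := by
    show Multiplicative.ofAdd (D.b 1) = 1
    rw [D.b_one]; rfl
  map_mul' σ τ := by
    show Multiplicative.ofAdd (D.b ((σ : GQ) * (τ : GQ))) = _
    rw [D.b_mul_of_chi_eq_one _ _ (mem_kerChi.mp τ.2)]
    rfl

lemma bHom_apply (τ : kerChi p) : D.bHom τ = Multiplicative.ofAdd (D.b τ) := rfl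

lemma mem_ker_bHom_iff (τ : kerChi p) : τ ∈ D.bHom.ker ↔ (τ : GQ) ∈ actKer V := by
  rw [MonoidHom.mem_ker, bHom_apply, D.mem_actKer_iff]
  constructor
  · intro h
    exact ⟨mem_kerChi.mp τ.2, Multiplicative.ofAdd.injective h⟩
  · rintro ⟨-, h⟩
    rw [h]; rfl

/-- If the cocycle is nonzero somewhere on `ker χ`, it is onto `ZMod p` there. -/
lemma exists_b_eq {τ₀ : GQ} (h1 : chi p τ₀ = 1) (h2 : D.b τ₀ ≠ 0) (y : ZMod p) :
    ∃ τ : GQ, chi p τ = 1 ∧ D.b τ = y := by
  have hpow : ∀ n : ℕ, chi p (τ₀ ^ n) = 1 ∧ D.b (τ₀ ^ n) = n * D.b τ₀ := by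
    intro n
    induction n with
    | zero => exact ⟨by rw [pow_zero, chi_one], by rw [pow_zero, D.b_one]; simp⟩
    | succ n ih =>
      refine ⟨by rw [pow_succ, chi_mul, ih.1, h1, mul_one], ?_⟩
      rw [pow_succ, D.b_mul_of_chi_eq_one _ _ h1, ih.2]
      push_cast
      ring
  refine ⟨τ₀ ^ (y / D.b τ₀).val, (hpow _).1, ?_⟩
  rw [(hpow _).2, ZMod.natCast_val, ZMod.cast_id', id_eq, div_mul_cancel₀ _ h2]

lemma bHom_surjective {τ₀ : GQ} (h1 : chi p τ₀ = 1) (h2 : D.b τ₀ ≠ 0) :
    Function.Surjective D.bHom := by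
  intro y
  obtain ⟨τ, hτ1, hτ2⟩ := D.exists_b_eq h1 h2 (Multiplicative.toAdd y)
  exact ⟨⟨τ, mem_kerChi.mpr hτ1⟩, by rw [bHom_apply]; simp [hτ2]⟩

end CocycleData

end Fermat.Agent.S14.Wiring.Cocycle
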