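import Fermat.Agent.S14.Wiring.Interface
import Fermat.Agent.S14.Wiring.Cocycle
import Fermat.Agent.S14.Wiring.Kummer
import Fermat.Agent.S14.Wiring.Unramified
import Fermat.Agent.S14.Wiring.ValRingAlt

/-!
# Package W of S14: glue

* the cyclotomic character versus `K.fixingSubgroup`;
* `kummerGenStmt : Interface.KummerGenStmt p` from `Cocycle` (W1) and `Kummer` (W2);
* `valRingStmt : Interface.ValRingStmt` from `ValRingAlt` (W3a);
* `unramStmt : Interface.UnramStmt p` from `Unramified` (W4).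
-/

set_option autoImplicit false

open scoped NumberField nonZeroDivisors
open IsDedekindDomain Fermat.Agent.S14.Defs

namespace Fermat.Agent.S14.Wiring.Glue

local notation "Qb" => AlgebraicClosure ℚ
local notation "Gq" => (AlgebraicClosure ℚ ≃ₐ[ℚ] AlgebraicClosure ℚ)

variable {p : ℕ} [Fact p.Prime]

/-- An automorphism with trivial mod-`p` cyclotomic character fixes every `p`-th root of
unity. -/
theorem apply_eq_of_cycloChar_eq_one (σ : Gq) (hσ : ExtCitation.cycloChar p σ = 1) (y : Qb)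
    (hy : y ^ p = 1) : σ y = y := by
  have hne : NeZero p := ⟨(Fact.out : p.Prime).ne_zero⟩
  have hp1 : 1 < p := (Fact.out : p.Prime).one_lt
  have hy0 : y ≠ 0 := by
    rintro rfl
    rw [zero_pow (NeZero.ne p)] at hy
    exact zero_ne_one hy
  have hmem : Units.mk0 y hy0 ∈ rootsOfUnity p Qb := by
    rw [mem_rootsOfUnity]
    ext
    simpa using hy
  have hspec := modularCyclotomicCharacter.spec (AlgebraicClosure ℚ)
    (ExtCitation.card_rootsOfUnity_eq_self p) (σ : Qb ≃+* Qb) hmem
  have hval : ((ExtCitation.cycloChar p σ : (ZMod p)ˣ) : ZMod p).val = 1 := by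
    rw [hσ]
    have : Fact (1 < p) := ⟨hp1⟩
    simpa using ZMod.val_one p
  have hspec' : (σ : Qb ≃+* Qb) y = y ^ ((ExtCitation.cycloChar p σ : (ZMod p)ˣ) : ZMod p).val :=
    hspec
  rw [hval, pow_one] at hspec'
  exact hspec'

/-- For the `p`-th cyclotomic field `K ⊆ Qb`: an automorphism fixes `K` pointwise iff its
mod-`p` cyclotomic character is trivial. -/
theorem mem_fixingSubgroup_iff (K : IntermediateField ℚ Qb) [IsCyclotomicExtension {p} ℚ K]
    (σ : Gq) : σ ∈ K.fixingSubgroup ↔ ExtCitation.cycloChar p σ = 1 := by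
  have hne : p ≠ 0 := (Fact.out : p.Prime).ne_zero
  rw [IntermediateField.mem_fixingSubgroup_iff]
  constructor
  · intro h
    obtain ⟨ζ, hζ⟩ := IsCyclotomicExtension.exists_isPrimitiveRoot ℚ K
      (Set.mem_singleton p) hne
    have hζ' : IsPrimitiveRoot ((ζ : K) : Qb) p :=
      hζ.map_of_injective (f := algebraMap K Qb) (algebraMap K Qb).injective
    exact Interface.cycloChar_eq_one_of_fixes σ _ hζ' (h _ ζ.2)
  · intro h x hx
    let f₁ : K →ₐ[ℚ] Qb := K.val
    let f₂ : K →ₐ[ℚ] Qb := (σ : Qb →ₐ[ℚ] Qb).comp K.val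
    have hle : Algebra.adjoin ℚ {b : K | ∃ n : ℕ, n ∈ ({p} : Set ℕ) ∧ n ≠ 0 ∧ b ^ n = 1} ≤
        AlgHom.equalizer f₁ f₂ := by
      refine Algebra.adjoin_le ?_
      rintro b ⟨n, hn, -, hb⟩
      rw [Set.mem_singleton_iff] at hn
      subst hn
      change f₁ b = f₂ b
      have hb' : ((b : K) : Qb) ^ n = 1 := by
        have := congrArg (fun z : K => (z : Qb)) hb
        simpa using this
      exact (apply_eq_of_cycloChar_eq_one σ h _ hb').symm
    have hmem := hle (IsCyclotomicExtension.adjoin_roots (S := {p}) (A := ℚ) (⟨x, hx⟩ : K))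
    have : f₁ ⟨x, hx⟩ = f₂ ⟨x, hx⟩ := hmem
    exact this.symm

/-- The same, in terms of `Cocycle.chi`. -/
theorem mem_fixingSubgroup_iff_chi (K : IntermediateField ℚ Qb) [IsCyclotomicExtension {p} ℚ K]
    (σ : Gq) : σ ∈ K.fixingSubgroup ↔ Cocycle.chi p σ = 1 := by
  rw [mem_fixingSubgroup_iff (p := p)]
  constructor
  · intro h
    simp [Cocycle.chi, h]
  · intro h
    exact Units.ext h


/-! ### W1 + W2 ⇒ `KummerGenStmt` -/

/-- The Kummer generator statement of package W. -/
theorem kummerGenStmt : Interface.KummerGenStmt p := by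
  intro _hp V _ _ _ _ C hadm hns K _ _
  have hne : p ≠ 0 := (Fact.out : p.Prime).ne_zero
  obtain ⟨D, τ₀, hτ₀, hbτ₀⟩ := Cocycle.exists_cocycleData hadm.toIsAdmissibleExtension hns
  obtain ⟨ζ, hζ⟩ := IsCyclotomicExtension.exists_isPrimitiveRoot ℚ K
    (Set.mem_singleton p) hne
  have hchi : ∀ σ : Gq, Cocycle.chi p σ = 1 ↔ ExtCitation.cycloChar p σ = 1 := by
    intro σ
    constructor
    · intro h
      exact Units.ext h
    · intro h
      simp [Cocycle.chi, h]
  have hNcl : IsClosed ((Cocycle.actKer V : Subgroup Gq) : Set Gq) :=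
    Subgroup.isClosed_of_isOpen _ (Cocycle.isOpen_actKer hadm)
  obtain ⟨α, θ, g0, h1, h2, h3, h4, -, -, -, h8, -⟩ :=
    Kummer.exists_kummer_generator_of_cocycle K ζ hζ (Cocycle.actKer V) inferInstance hNcl D.b
      (fun σ τ => D.b_mul σ τ)
      (fun σ => by rw [D.mem_actKer_iff, hchi])
      ⟨τ₀, (hchi τ₀).1 hτ₀, hbτ₀⟩
  exact ⟨ζ, α, θ, hζ, h1, h2, h3, h4, fun σ hσ => h8 σ (Cocycle.mem_actKer.2 hσ)⟩

/-! ### W3a + W4 ⇒ `UnramStmt` -/

/-- W3a in the interface shape. -/
theorem valRingStmt : Interface.ValRingStmt :=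
  fun K _ v => ValRingAlt.exists_valuationSubring_mem_iff K v

/-- The statement of package W away from `p`. -/
theorem unramStmt : Interface.UnramStmt p :=
  Unramified.unramStmt_of_valRing valRingStmt p

end Fermat.Agent.S14.Wiring.Glue
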