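import Fermat.Agent.S14.Base
import Fermat.Agent.S14.Wiring.SplitCore
import Fermat.Agent.S14.Wiring.Interface
import Fermat.Agent.Lib.DecompLift

set_option autoImplicit false

/-!
# S14, package W, row W5: locally split ⇒ `ValDivisible` at `p` and `LocalPow`

`Qb = AlgebraicClosure ℚ`, `K ⊆ Qb` a number field containing a primitive `p`-th root of unity,
`θ ∈ Qb` with `θ ^ p = α ∈ K`. If every element of a decomposition group at `p` which fixes `K`
also fixes `θ`, then for every prime `v ∣ p` of `K`, `α` is a `p`-th power times an element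
`≡ 1 mod v ^ n`.
-/

open scoped NumberField Pointwise
open IsDedekindDomain Polynomial

namespace Fermat.Agent.S14.Wiring.Split

local notation "Qb" => AlgebraicClosure ℚ
local notation "Gq" => (AlgebraicClosure ℚ ≃ₐ[ℚ] AlgebraicClosure ℚ)

/-- W3a (weak form): every prime of `𝓞 K` lies under a valuation subring of `Qb`. -/
theorem exists_valuationSubring_over (K : IntermediateField ℚ Qb) [NumberField K]
    (v : HeightOneSpectrum (𝓞 K)) :
    ∃ A : ValuationSubring Qb, ∀ x : 𝓞 K, x ∈ v.asIdeal → (((x : K) : Qb)) ∈ A.nonunits := by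
  let f : 𝓞 K →+* Qb := (algebraMap K Qb).comp (algebraMap (𝓞 K) K)
  have hf : Function.Injective f :=
    (algebraMap K Qb).injective.comp NumberField.RingOfIntegers.coe_injective
  let R₀ : Subring Qb := f.range
  let f' : 𝓞 K →+* R₀ := f.rangeRestrict
  let I : Ideal R₀ := v.asIdeal.map f'
  have hI : I ≠ ⊤ := by
    intro h
    have h1 : (1 : R₀) ∈ I := h ▸ Submodule.mem_top
    obtain ⟨y, hy, hy1⟩ := (Ideal.mem_map_iff_of_surjective f' f.rangeRestrict_surjective).mp h1
    have h2 : f y = f 1 := by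
      have h := congrArg Subtype.val hy1
      rw [map_one]
      exact h
    have h3 : y = 1 := hf h2
    exact v.isPrime.ne_top ((Ideal.eq_top_iff_one _).mpr (h3 ▸ hy))
  obtain ⟨B, -, hB⟩ := Ideal.image_subset_nonunits_valuationSubring I hI
  exact ⟨B, fun x hx => hB ⟨f' x, Ideal.mem_map_of_mem _ hx, rfl⟩⟩

/-- **W5**, general exponent `n`. -/
theorem atP_pow {p : ℕ} [Fact p.Prime] (K : IntermediateField ℚ Qb) [NumberField K]
    (ζ : K) (hζ : IsPrimitiveRoot ζ p) (θ : Qb) (α : K) (hα : α ≠ 0)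
    (hθ : θ ^ p = ((α : K) : Qb))
    (hfix : ∀ A : ValuationSubring Qb, A.LiesOverPrime p → ∀ σ ∈ A.decompositionSubgroup ℚ,
      (∀ x : K, σ (x : Qb) = x) → σ θ = θ)
    (v : HeightOneSpectrum (𝓞 K)) (hv : ((p : ℕ) : 𝓞 K) ∈ v.asIdeal) (n : ℕ) (hn : 0 < n) :
    ∃ x : K, x ≠ 0 ∧ v.valuation K (α * x ^ p) = 1 ∧
      v.valuation K (α * x ^ p - 1) ≤ WithZero.exp (-(n : ℤ)) := by
  classical
  have hp : p.Prime := Fact.out
  have hpK : ((p : ℕ) : K) ≠ 0 := Nat.cast_ne_zero.mpr hp.ne_zero
  -- the splitting field of `X ^ p - α`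
  let f : K[X] := X ^ p - C α
  have hf0 : f ≠ 0 := X_pow_sub_C_ne_zero hp.pos α
  let L : IntermediateField K Qb := IntermediateField.adjoin K (f.rootSet Qb)
  have hsplit : (f.map (algebraMap K Qb)).Splits := IsAlgClosed.splits _
  have : f.IsSplittingField K L := IntermediateField.adjoin_rootSet_isSplittingField hsplit
  have : FiniteDimensional K L := Polynomial.IsSplittingField.finiteDimensional L f
  have : IsGalois K L :=
    IsGalois.of_separable_splitting_field (p := f) (separable_X_pow_sub_C α hpK hα)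
  have : NumberField L := NumberField.of_module_finite K L
  have hθroot : θ ∈ f.rootSet Qb := by
    rw [mem_rootSet]
    refine ⟨hf0, ?_⟩
    simp only [f, map_sub, map_pow, aeval_X, aeval_C]
    rw [hθ]
    exact sub_self _
  have hθmem : θ ∈ L := IntermediateField.subset_adjoin K _ hθroot
  let θL : L := ⟨θ, hθmem⟩
  have hθL : θL ^ p = algebraMap K L α := Subtype.ext hθ
  -- a valuation subring over `v`
  obtain ⟨A, hAv⟩ := exists_valuationSubring_over K v
  have hA : A.LiesOverPrime p := by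
    have h := hAv _ hv
    change ((p : ℕ) : Qb) ∈ A.nonunits
    simpa using h
  -- the prime of `𝓞 L` below `A`
  let ι₀ : 𝓞 L →+* Qb := (algebraMap L Qb).comp (algebraMap (𝓞 L) L)
  have hι₀int : ∀ x : 𝓞 L, IsIntegral ℤ (ι₀ x) := fun x =>
    (NumberField.RingOfIntegers.isIntegral_coe x).map
      ((algebraMap L Qb).toIntAlgHom)
  let ι : 𝓞 L →+* A := ι₀.codRestrict A.toSubring
    (fun x => Lib.DecompLift.mem_of_isIntegral A (hι₀int x))
  let P : Ideal (𝓞 L) := (IsLocalRing.maximalIdeal A).comap ι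
  have hPprime : P.IsPrime := Ideal.comap_isPrime ι _
  have hPmem : ∀ x : 𝓞 L, x ∈ P ↔ ι₀ x ∈ A.nonunits := by
    intro x
    change ι x ∈ IsLocalRing.maximalIdeal A ↔ _
    rw [← ValuationSubring.coe_mem_nonunits_iff]
    rfl
  have hPne : P ≠ ⊥ := by
    intro h
    have h1 : ((p : ℕ) : 𝓞 L) ∈ P := by
      rw [hPmem]
      have : ι₀ ((p : ℕ) : 𝓞 L) = ((p : ℕ) : Qb) := map_natCast ι₀ p
      rw [this]
      exact hA
    rw [h, Ideal.mem_bot] at h1
    exact hp.ne_zero (by exact_mod_cast h1)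
  let w : HeightOneSpectrum (𝓞 L) := ⟨P, hPprime, hPne⟩
  have hover : w.asIdeal.LiesOver v.asIdeal := by
    refine ⟨?_⟩
    have hle : v.asIdeal ≤ Ideal.under (𝓞 K) P := by
      intro x hx
      rw [Ideal.mem_comap, hPmem]
      exact hAv x hx
    have hne : Ideal.under (𝓞 K) P ≠ ⊤ := by
      intro h
      have h1 : (1 : 𝓞 K) ∈ Ideal.under (𝓞 K) P := h ▸ Submodule.mem_top
      rw [Ideal.mem_comap, map_one] at h1
      exact hPprime.ne_top ((Ideal.eq_top_iff_one _).mpr h1)
    exact (Ideal.IsMaximal.eq_of_le inferInstance hne hle)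
  -- the decomposition group of `w` in `Gal(L/K)` is trivial
  have hζQ : IsPrimitiveRoot ((ζ : K) : Qb) p := hζ.map_of_injective (algebraMap K Qb).injective
  have hD : ∀ g : L ≃ₐ[K] L, g • w.asIdeal = w.asIdeal → g = 1 := by
    intro g hg
    have halgQ : Algebra.IsAlgebraic ℚ Qb := Base.isAlgebraic
    have halg : Algebra.IsAlgebraic K Qb := Algebra.IsAlgebraic.tower_top (K := ℚ) K
    have hcl : IsAlgClosure K Qb := ⟨inferInstance, halg⟩
    have hnormal : Normal K Qb := IsAlgClosure.normal K Qb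
    let τK : Qb ≃ₐ[K] Qb := g.liftNormal Qb
    let τ : Gq := τK.restrictScalars ℚ
    have hτL : ∀ x : L, τ (x : Qb) = ((g x : L) : Qb) := fun x => g.liftNormal_commutes Qb x
    let M : IntermediateField ℚ Qb := L.restrictScalars ℚ
    have hτ : ∀ x ∈ M, IsIntegral ℤ x → (x ∈ A.nonunits ↔ τ x ∈ A.nonunits) := by
      intro x hx hxi
      let xL : L := ⟨x, hx⟩
      have hxLi : IsIntegral ℤ xL :=
        (isIntegral_algebraMap_iff (algebraMap L Qb).injective).mp hxi
      let xO : 𝓞 L := IsIntegralClosure.mk' (𝓞 L) xL hxLi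
      have hxO : algebraMap (𝓞 L) L xO = xL := IsIntegralClosure.algebraMap_mk' (𝓞 L) xL hxLi
      have h1 : xO ∈ P ↔ g • xO ∈ P := by
        have h2 : g • xO ∈ g • P ↔ xO ∈ P := Ideal.smul_mem_pointwise_smul_iff
        have hg' : g • P = P := hg
        rw [hg'] at h2
        exact h2.symm
      rw [hPmem, hPmem] at h1
      have e1 : ι₀ xO = x := by
        change algebraMap L Qb (algebraMap (𝓞 L) L xO) = x
        rw [hxO]
        rfl
      have e2 : ι₀ (g • xO) = τ x := by
        change algebraMap L Qb (g (algebraMap (𝓞 L) L xO)) = τ x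
        rw [hxO]
        exact (hτL xL).symm
      rw [e1, e2] at h1
      exact h1
    obtain ⟨σ, hσD, hσ⟩ := Lib.DecompLift.exists_decomp_lift M A hp hA τ hτ
    have hKM : ∀ x : K, ((x : K) : Qb) ∈ M := fun x => L.algebraMap_mem x
    have hσK : ∀ x : K, σ (x : Qb) = x := by
      intro x
      rw [hσ _ (hKM x)]
      exact τK.commutes x
    have hσθ := hfix A hA σ hσD hσK
    have hτθ : τK θ = θ := by
      have := hσ θ hθmem
      rw [hσθ] at this
      exact this.symm
    -- `τK` fixes every root of `f`, hence all of `L`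
    have hroot : ∀ y ∈ f.rootSet Qb, τK y = y := by
      intro y hy
      rw [mem_rootSet] at hy
      have hy' : y ^ p = ((α : K) : Qb) := by
        have := hy.2
        simp only [f, map_sub, map_pow, aeval_X, aeval_C] at this
        exact sub_eq_zero.mp this
      have hθ0 : θ ≠ 0 := by
        rintro rfl
        rw [zero_pow hp.ne_zero] at hθ
        exact hα (by exact_mod_cast hθ.symm)
      have h1 : (y / θ) ^ p = 1 := by
        rw [div_pow, hy', hθ, div_self]
        rw [← hθ]
        exact pow_ne_zero _ hθ0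
      have : NeZero p := ⟨hp.ne_zero⟩
      obtain ⟨i, -, hi⟩ := hζQ.eq_pow_of_pow_eq_one h1
      have hy2 : y = ((ζ : K) : Qb) ^ i * θ := by
        rw [hi]
        field_simp
      rw [hy2, map_mul, map_pow, hτθ]
      congr 2
      exact τK.commutes ζ
    have hfixL : ∀ x ∈ L, τK x = x := by
      intro x hx
      induction hx using IntermediateField.adjoin_induction with
      | mem y hy => exact hroot y hy
      | algebraMap y => exact τK.commutes y
      | add y z _ _ hy hz => rw [map_add, hy, hz]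
      | inv y _ hy => rw [map_inv₀, hy]
      | mul y z _ _ hy hz => rw [map_mul, hy, hz]
    ext x
    change ((g x : L) : Qb) = (x : Qb)
    have h1 := hτL x
    have h2 : τ (x : Qb) = (x : Qb) := hfixL x x.2
    rw [h2] at h1
    exact h1.symm
  exact SplitCore.localPow_core v w hD p n hp.pos hn α hα θL hθL

/-- **W5**: divisibility of the valuation at `v ∣ p` and local `p`-th power modulo `v ^ 3`. -/
theorem atP {p : ℕ} [Fact p.Prime] (K : IntermediateField ℚ Qb) [NumberField K]
    (ζ : K) (hζ : IsPrimitiveRoot ζ p) (θ : Qb) (α : K) (hα : α ≠ 0)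
    (hθ : θ ^ p = ((α : K) : Qb))
    (hfix : ∀ A : ValuationSubring Qb, A.LiesOverPrime p → ∀ σ ∈ A.decompositionSubgroup ℚ,
      (∀ x : K, σ (x : Qb) = x) → σ θ = θ)
    (v : HeightOneSpectrum (𝓞 K)) (hv : ((p : ℕ) : 𝓞 K) ∈ v.asIdeal) :
    (∃ x : K, x ≠ 0 ∧ v.valuation K (α * x ^ p) = 1) ∧
      (∃ x : K, v.valuation K (α * x ^ p - 1) ≤ WithZero.exp (-3 : ℤ)) := by
  obtain ⟨x, hx0, h1, h3⟩ := atP_pow K ζ hζ θ α hα hθ hfix v hv 3 (by norm_num)
  exact ⟨⟨x, hx0, h1⟩, ⟨x, by simpa using h3⟩⟩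

/-- **W5** in the frozen interface shape of package W. -/
theorem atPStmt (p : ℕ) [Fact p.Prime] : Interface.AtPStmt p :=
  fun _ K _ _ ζ hζ θ α hα hθ hfix v hv => atP K ζ hζ θ α hα hθ hfix v hv

end Fermat.Agent.S14.Wiring.Split
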