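import Fermat.Agent.S14.Wiring.Interface
import Fermat.Agent.S14.Wiring.Cocycle
import Fermat.Agent.S14.Wiring.Kummer

/-!
# S14, package W: the statement `KummerGenStmt` (W1 + W2 assembled)
-/

set_option autoImplicit false

open scoped NumberField
open Fermat.Agent.S14.Defs

namespace Fermat.Agent.S14.Wiring.KummerGen

local notation "Qb" => AlgebraicClosure ℚ
local notation "Gq" => (AlgebraicClosure ℚ ≃ₐ[ℚ] AlgebraicClosure ℚ)

open Fermat.Agent.S14.Wiring

/-- **W1 + W2.** The Kummer generator of the kernel field of a non-split admissible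
extension, in the `V`-form of `Interface.KummerGenStmt`. -/
theorem kummerGenStmt (p : ℕ) [Fact p.Prime] : Interface.KummerGenStmt p := by
  intro _ V _ _ _ _ C hadm hns K _ _
  have hp : p.Prime := Fact.out
  have : NeZero p := ⟨hp.ne_zero⟩
  obtain ⟨D, τ₀, hτ1, hτ2⟩ := Cocycle.exists_cocycleData hadm.toIsAdmissibleExtension hns
  have hζ : IsPrimitiveRoot (IsCyclotomicExtension.zeta p ℚ K) p :=
    IsCyclotomicExtension.zeta_spec p ℚ K
  have hopen : IsOpen ((Cocycle.actKer V : Subgroup Gq) : Set Gq) := Cocycle.isOpen_actKer hadm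
  have hcl : IsClosed ((Cocycle.actKer V : Subgroup Gq) : Set Gq) :=
    Subgroup.isClosed_of_isOpen _ hopen
  have hχ : ∀ σ : Gq, ExtCitation.cycloChar p σ = 1 ↔ Cocycle.chi p σ = 1 := fun σ =>
    Cocycle.mem_kerChi (p := p) (σ := σ)
  obtain ⟨α, θ, g0, h1, h2, h3, h4, -, -, -, h6, -⟩ :=
    Kummer.exists_kummer_generator_of_cocycle K (IsCyclotomicExtension.zeta p ℚ K) hζ
      (Cocycle.actKer V) Cocycle.actKer_normal hcl D.b (fun σ τ => D.b_mul σ τ)
      (fun σ => by rw [D.mem_actKer_iff, hχ])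
      ⟨τ₀, (hχ τ₀).mpr hτ1, hτ2⟩
  exact ⟨IsCyclotomicExtension.zeta p ℚ K, α, θ, hζ, h1, h2, h3, h4, fun σ hσ => h6 σ hσ⟩

end Fermat.Agent.S14.Wiring.KummerGen
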