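import Mathlib
import Fermat.Prelude.Def_FLTPrelim_Ramification
import Fermat.Agent.Lib.DecompLift
import Fermat.Agent.S14.Wiring.SplitCore

set_option autoImplicit false

/-!
# W5 glue: locally split at `p` gives `ValDivisible` at `p` and `LocalPow`

`K ⊆ Qbar` a number field containing a primitive `p`-th root of unity, `θ ^ p = α ∈ K`.
If every element of a decomposition group above `p` fixing `K` pointwise also fixes `θ`, then for
every prime `v ∣ p` of `K` the element `α` is, up to a `p`-th power, a `v`-unit congruent to `1`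
modulo `v ^ 3`.

Ingredients: the number field core `SplitCore.localPow_core`, the lifting lemma
`Lib.DecompLift.exists_decomp_lift`, and a valuation subring of `Qbar` above a prime of the
Kummer field `K(θ)` obtained from `Ideal.image_subset_nonunits_valuationSubring`.
-/

open scoped NumberField Pointwise
open IsDedekindDomain Polynomial

namespace Fermat.Agent.S14.Wiring.SplitAlt

local notation "Qb" => AlgebraicClosure ℚ
local notation "Gq" => (AlgebraicClosure ℚ ≃ₐ[ℚ] AlgebraicClosure ℚ)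

section Kummer

variable {F E : Type*} [Field F] [Field E] [Algebra F E]

theorem splits_map {n : ℕ} {ζ : F} (hζ : IsPrimitiveRoot ζ n) (a : F) (θ : E)
    (hθ : θ ^ n = algebraMap F E a) : ((X ^ n - C a : F[X]).map (algebraMap F E)).Splits := by
  rw [Polynomial.map_sub, Polynomial.map_pow, Polynomial.map_C, Polynomial.map_X]
  exact X_pow_sub_C_splits_of_isPrimitiveRoot (hζ.map_of_injective (algebraMap F E).injective) hθ

theorem isSplittingField_adjoin {n : ℕ} {ζ : F} (hζ : IsPrimitiveRoot ζ n) (a : F) (θ : E)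
    (hθ : θ ^ n = algebraMap F E a) :
    (X ^ n - C a : F[X]).IsSplittingField F
      (IntermediateField.adjoin F ((X ^ n - C a : F[X]).rootSet E)) :=
  IntermediateField.adjoin_rootSet_isSplittingField (splits_map hζ a θ hθ)

theorem isGalois_adjoin [CharZero F] {n : ℕ} {ζ : F} (hζ : IsPrimitiveRoot ζ n) (a : F) (θ : E)
    (hθ : θ ^ n = algebraMap F E a) :
    IsGalois F (IntermediateField.adjoin F ((X ^ n - C a : F[X]).rootSet E)) := by
  have := isSplittingField_adjoin hζ a θ hθ
  have : FiniteDimensional F (IntermediateField.adjoin F ((X ^ n - C a : F[X]).rootSet E)) :=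
    Polynomial.IsSplittingField.finiteDimensional _ (X ^ n - C a : F[X])
  have : Normal F (IntermediateField.adjoin F ((X ^ n - C a : F[X]).rootSet E)) :=
    Normal.of_isSplittingField (X ^ n - C a : F[X])
  exact ⟨⟩

theorem mem_adjoin {n : ℕ} (hn : n ≠ 0) (a : F) (θ : E)
    (hθ : θ ^ n = algebraMap F E a) :
    θ ∈ IntermediateField.adjoin F ((X ^ n - C a : F[X]).rootSet E) := by
  refine IntermediateField.subset_adjoin _ _ ?_
  rw [mem_rootSet_of_ne (X_pow_sub_C_ne_zero (Nat.pos_of_ne_zero hn) a)]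
  simp [hθ]

/-- An automorphism of the Kummer field fixing one root is trivial. -/
theorem eq_one_of_fix {n : ℕ} (hn : n ≠ 0) {ζ : F} (hζ : IsPrimitiveRoot ζ n) (a : F) (ha : a ≠ 0)
    (θ : E) (hθ : θ ^ n = algebraMap F E a)
    (g : IntermediateField.adjoin F ((X ^ n - C a : F[X]).rootSet E) ≃ₐ[F]
      IntermediateField.adjoin F ((X ^ n - C a : F[X]).rootSet E))
    (hg : g ⟨θ, mem_adjoin hn a θ hθ⟩ = ⟨θ, mem_adjoin hn a θ hθ⟩) : g = 1 := by
  have := isSplittingField_adjoin hζ a θ hθ
  have hadj := Polynomial.IsSplittingField.adjoin_rootSet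
    (IntermediateField.adjoin F ((X ^ n - C a : F[X]).rootSet E)) (X ^ n - C a : F[X])
  have h : (g : IntermediateField.adjoin F ((X ^ n - C a : F[X]).rootSet E) →ₐ[F]
      IntermediateField.adjoin F ((X ^ n - C a : F[X]).rootSet E)) = AlgHom.id F _ := by
    refine AlgHom.ext_of_adjoin_eq_top hadj ?_
    intro r hr
    rw [mem_rootSet_of_ne (X_pow_sub_C_ne_zero (Nat.pos_of_ne_zero hn) a)] at hr
    simp only [map_sub, map_pow, aeval_X, aeval_C, sub_eq_zero] at hr
    set θ' : IntermediateField.adjoin F ((X ^ n - C a : F[X]).rootSet E) :=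
      ⟨θ, mem_adjoin hn a θ hθ⟩ with hθ'
    have hθ'n : θ' ^ n = algebraMap F _ a := by
      apply Subtype.ext
      simpa using hθ
    have hθ0 : θ' ≠ 0 := by
      rintro h0
      rw [h0, zero_pow hn] at hθ'n
      exact ha ((map_eq_zero _).mp hθ'n.symm)
    have h1 : (r / θ') ^ n = 1 := by
      rw [div_pow, hr, hθ'n, div_self]
      exact fun h0 => ha ((map_eq_zero _).mp h0)
    have : NeZero n := ⟨hn⟩
    obtain ⟨i, -, hi⟩ := (hζ.map_of_injective (algebraMap F _).injective).eq_pow_of_pow_eq_one h1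
    have hr' : r = algebraMap F _ (ζ ^ i) * θ' := by
      rw [map_pow, hi, div_mul_cancel₀ _ hθ0]
    show g r = r
    rw [hr', map_mul, AlgEquiv.commutes, hg]
  ext x
  exact congrArg (fun f => (f x : E)) h

end Kummer

/-- For a number field `L` inside a field `Ω` and a maximal ideal `w` of `𝓞 L`, there is a
valuation subring of `Ω` whose maximal ideal cuts out `w`. -/
theorem exists_valuationSubring_over {L Ω : Type*} [Field L] [NumberField L] [Field Ω]
    [Algebra L Ω] (w : Ideal (𝓞 L)) [hw : w.IsMaximal] :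
    ∃ A : ValuationSubring Ω, ∀ x : 𝓞 L, algebraMap L Ω (x : L) ∈ A.nonunits ↔ x ∈ w := by
  let f : 𝓞 L →+* Ω := (algebraMap L Ω).comp (algebraMap (𝓞 L) L)
  have hf : Function.Injective f :=
    (algebraMap L Ω).injective.comp (FaithfulSMul.algebraMap_injective (𝓞 L) L)
  let I : Ideal f.range := w.map f.rangeRestrict
  have hI : I ≠ ⊤ := by
    intro h
    have h1 : (1 : f.range) ∈ I := h ▸ Submodule.mem_top
    obtain ⟨x, hx, hx1⟩ := (Ideal.mem_map_iff_of_surjective f.rangeRestrict
      f.rangeRestrict_surjective).mp h1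
    have hx2 : f x = f 1 := by
      have := congrArg Subtype.val hx1
      simpa using this
    rw [hf hx2] at hx
    exact hw.ne_top ((Ideal.eq_top_iff_one _).mpr hx)
  obtain ⟨B, hRB, hIB⟩ := Ideal.image_subset_nonunits_valuationSubring I hI
  have hmem : ∀ x : 𝓞 L, x ∈ w → f x ∈ B.nonunits := fun x hx =>
    hIB ⟨f.rangeRestrict x, Ideal.mem_map_of_mem _ hx, rfl⟩
  have hle : ∀ x : 𝓞 L, B.valuation (f x) ≤ 1 := fun x =>
    (B.valuation_le_one_iff _).mpr (hRB ⟨x, rfl⟩)
  refine ⟨B, fun x => ⟨fun hx => ?_, hmem x⟩⟩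
  by_contra hxw
  obtain ⟨y, m, hm, hxy⟩ := hw.exists_inv hxw
  have h1 : B.valuation (f y * f x) < 1 := by
    rw [map_mul]
    calc B.valuation (f y) * B.valuation (f x) ≤ 1 * B.valuation (f x) := by
          gcongr
          exact hle y
      _ < 1 := by rw [one_mul]; exact B.mem_nonunits_iff.mp hx
  have h2 : B.valuation (f m) < 1 := B.mem_nonunits_iff.mp (hmem m hm)
  have h3 : B.valuation (f y * f x + f m) < 1 := B.valuation.map_add_lt h1 h2
  rw [← map_mul, ← map_add, hxy, map_one, map_one] at h3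
  exact lt_irrefl _ h3

theorem finiteDimensional_adjoin {F E : Type*} [Field F] [Field E] [Algebra F E]
    {n : ℕ} {ζ : F} (hζ : IsPrimitiveRoot ζ n) (a : F) (θ : E)
    (hθ : θ ^ n = algebraMap F E a) :
    FiniteDimensional F (IntermediateField.adjoin F ((X ^ n - C a : F[X]).rootSet E)) := by
  have := isSplittingField_adjoin hζ a θ hθ
  exact Polynomial.IsSplittingField.finiteDimensional _ (X ^ n - C a : F[X])

theorem atP {p : ℕ} [Fact p.Prime] (K : IntermediateField ℚ Qb) [NumberField K] (ζ : K)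
    (hζ : IsPrimitiveRoot ζ p) (θ : Qb) (α : K) (hα : α ≠ 0) (hθ : θ ^ p = ((α : K) : Qb))
    (hfix : ∀ A : ValuationSubring Qb, A.LiesOverPrime p → ∀ σ ∈ A.decompositionSubgroup ℚ,
      (∀ x : K, σ (x : Qb) = x) → σ θ = θ)
    (v : HeightOneSpectrum (𝓞 K)) (hv : ((p : ℕ) : 𝓞 K) ∈ v.asIdeal) :
    (∃ x : K, x ≠ 0 ∧ v.valuation K (α * x ^ p) = 1) ∧
      (∃ x : K, v.valuation K (α * x ^ p - 1) ≤ WithZero.exp (-3 : ℤ)) := by
  have hp : p.Prime := Fact.out
  have hθ' : θ ^ p = algebraMap K Qb α := hθ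
  -- the Kummer field
  let L : IntermediateField K Qb :=
    IntermediateField.adjoin K ((X ^ p - C α : K[X]).rootSet Qb)
  have : IsGalois K L := isGalois_adjoin hζ α θ hθ'
  have : FiniteDimensional K L := finiteDimensional_adjoin hζ α θ hθ'
  have : NumberField L :=
    { to_charZero := inferInstance
      to_finiteDimensional := Module.Finite.trans K L }
  have hθL : θ ∈ L := mem_adjoin hp.ne_zero α θ hθ'
  -- a prime of `L` above `v`
  obtain ⟨P, hPmax, hPlo⟩ := Ideal.exists_maximal_ideal_liesOver_of_isIntegral (S := 𝓞 L) v.asIdeal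
  have hPbot : P ≠ ⊥ := Ideal.ne_bot_of_liesOver_of_ne_bot v.ne_bot P
  let w : HeightOneSpectrum (𝓞 L) := ⟨P, hPmax.isPrime, hPbot⟩
  have : w.asIdeal.LiesOver v.asIdeal := hPlo
  -- a valuation subring above it
  obtain ⟨A, hA⟩ := exists_valuationSubring_over (L := L) (Ω := Qb) P
  have hAp : A.LiesOverPrime p := by
    have h1 : ((p : ℕ) : 𝓞 L) ∈ P := by
      have h2 : algebraMap (𝓞 K) (𝓞 L) ((p : ℕ) : 𝓞 K) ∈ P := by
        rw [← Ideal.mem_comap]
        have := hPlo.over
        rw [Ideal.under_def] at this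
        rw [← this]
        exact hv
      simpa using h2
    have h3 := (hA ((p : ℕ) : 𝓞 L)).mpr h1
    show ((p : ℕ) : Qb) ∈ A.nonunits
    simpa using h3
  -- trivial decomposition group
  have : Algebra.IsAlgebraic ℚ Qb := Fermat.Agent.Lib.FrobProfinite.isAlgebraic_Qb
  have : Algebra.IsAlgebraic K Qb := Algebra.IsAlgebraic.tower_top (K := ℚ) K
  have : IsAlgClosure K Qb := ⟨inferInstance, inferInstance⟩
  have : Normal K Qb := IsAlgClosure.normal K Qb
  have hD : ∀ g : L ≃ₐ[K] L, g • w.asIdeal = w.asIdeal → g = 1 := by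
    intro g hg
    let g' : Qb ≃ₐ[K] Qb := g.liftNormal Qb
    have hg' : ∀ x : L, g' (x : Qb) = ((g x : L) : Qb) := fun x => g.liftNormal_commutes Qb x
    let τ : Gq := g'.restrictScalars ℚ
    have hτ : ∀ x : Qb, τ x = g' x := fun _ => rfl
    obtain ⟨σ, hσ, hστ⟩ := Fermat.Agent.Lib.DecompLift.exists_decomp_lift
      (L.restrictScalars ℚ) A hp hAp τ (by
        intro x hx hxi
        have hx' : x ∈ L := hx
        have hint : IsIntegral ℤ (⟨x, hx'⟩ : L) :=
          (isIntegral_algebraMap_iff (algebraMap L Qb).injective).mp hxi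
        let y : 𝓞 L := ⟨⟨x, hx'⟩, hint⟩
        have h1 : x ∈ A.nonunits ↔ y ∈ P := hA y
        have h2 : τ x ∈ A.nonunits ↔ g • y ∈ P := by
          rw [← hA (g • y), hτ]
          have : g' x = algebraMap L Qb ((g • y : 𝓞 L) : L) := hg' ⟨x, hx'⟩
          rw [this]
        rw [h1, h2]
        have h3 : g • y ∈ g • w.asIdeal ↔ y ∈ w.asIdeal := Ideal.smul_mem_pointwise_smul_iff
        rw [hg] at h3
        exact h3.symm)
    have hσθ : σ θ = θ := by
      refine hfix A hAp σ hσ fun x => ?_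
      have hxL : ((x : K) : Qb) ∈ L.restrictScalars ℚ := L.algebraMap_mem x
      rw [hστ _ hxL, hτ]
      exact g'.commutes x
    refine eq_one_of_fix hp.ne_zero hζ α hα θ hθ' g ?_
    apply Subtype.ext
    have h4 := hg' ⟨θ, hθL⟩
    rw [← h4, ← hτ, ← hστ θ hθL]
    exact hσθ
  have hθn : (⟨θ, hθL⟩ : L) ^ p = algebraMap K L α := Subtype.ext (by simpa using hθ')
  obtain ⟨x, hx0, h1, h2⟩ := Fermat.Agent.S14.Wiring.SplitCore.localPow_core v w hD p 3 hp.pos
    (by norm_num) α hα (⟨θ, hθL⟩ : L) hθn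
  exact ⟨⟨x, hx0, h1⟩, ⟨x, by simpa using h2⟩⟩

end Fermat.Agent.S14.Wiring.SplitAlt
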